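import Fermat.Agent.RT.Carayol.Pow.Level
import Fermat.Agent.RT.Carayol.Tools
import Fermat.Agent.RT.Coh.CohPart

/-!
# A non-Eisenstein system in a balanced class at level `L q²` occurs at level `L q`
-/

set_option autoImplicit false
set_option linter.style.haveILetI false

noncomputable section

namespace FLTAgent.RT.Carayol

open LevelRaise CongruenceSubgroup
open scoped MatrixGroups
open ModularGroup

variable {k : Type*} [Field k] {L q : ℕ} [NeZero L] [NeZero q]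

/-- A non-Eisenstein eigensystem carried by a balanced class at level `L q²` occurs at `L q`. -/
theorem exists_eigen_pow (h2 : (2 : k) ≠ 0) (bad : Set ℕ) (a : ℕ → k)
    {φ : Coh (L * q * q) trivChar k} (hφ0 : φ ≠ 0) (hφ : IsBalancedPow φ)
    (heig : ∀ (ℓ : ℕ) (hℓ : ℓ.Prime) (hℓN : ¬ ℓ ∣ L * q * q), ℓ ∉ bad →
      opT k k trivChar (one_dvd _) hℓ hℓN φ = a ℓ • φ)
    (hne : ∀ Q : ℕ, Q ≠ 0 → ∃ ℓ : ℕ, ℓ.Prime ∧ ¬ ℓ ∣ L * q * q ∧ ℓ ∉ bad ∧ (ℓ : ZMod Q) = 1 ∧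
      a ℓ ≠ (ℓ : k) + 1)
    (h3 : (3 : k) ≠ 0 ∨ ∃ r : ℕ, r.Prime ∧ r % 3 = 2 ∧ r ∣ L) :
    ∃ θ : Coh (L * q) trivChar k, θ ≠ 0 ∧
      ∀ (ℓ : ℕ) (hℓ : ℓ.Prime) (hℓN : ¬ ℓ ∣ L * q), ℓ ∉ bad →
        opT k k trivChar (one_dvd _) hℓ hℓN θ = a ℓ • θ := by
  have hbij : ∀ n : ℕ, (n : k) ≠ 0 → Function.Bijective fun x : k => n • x := fun n hn => by
    simpa [nsmul_eq_mul] using (mulLeft_bijective₀ _ hn)
  have hφ1 : φ (Additive.ofMul ⟨-1, gamma0_le_triv _ (neg_one_mem_gamma0 _)⟩) = 0 := by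
    refine (mul_eq_zero.mp ?_).resolve_left h2
    rw [← Nat.cast_two, ← nsmul_eq_mul, ← map_nsmul, ← ofMul_pow,
      show (⟨-1, gamma0_le_triv _ (neg_one_mem_gamma0 _)⟩ : gammaH (L * q * q) trivChar) ^ 2 = 1
        from Subtype.ext (by simp), ofMul_one, map_zero]
  obtain ⟨Q, hQ, hold⟩ := exists_old_of_isBalancedPow (R := k) (hbij 2 (by exact_mod_cast h2))
    (h3.imp (fun h => hbij 3 (by exact_mod_cast h))
      fun ⟨_, hr, hr3, hrL⟩ => ST_smul_ne hr hr3 hrL) hφ1 hφ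
  obtain ⟨ℓ₀, hℓ₀, hℓ₀N, hℓ₀S, hℓ₀Q, hℓ₀a⟩ := hne Q hQ
  obtain ⟨α, β, hαβ⟩ := hold ℓ₀ hℓ₀ hℓ₀N hℓ₀Q
  haveI : Module.Finite k (Coh (L * q) trivChar k) := moduleFinite_coh k k (one_dvd _)
  let ι := {ℓ : ℕ // ℓ.Prime ∧ ¬ ℓ ∣ L * q * q ∧ ℓ ∉ bad}
  have hι : ∀ i : ι, ¬ i.1 ∣ L * q := fun i h => i.2.2.1 (h.trans (dvd_mul_right _ _))
  let T : ι → Module.End k (Coh (L * q) trivChar k × Coh (L * q) trivChar k) := fun i =>
    LinearMap.prodMap (opT k k trivChar (one_dvd _) i.2.1 (hι i))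
      (opT k k trivChar (one_dvd _) i.2.1 (hι i))
  let T' : ι → Module.End k (Coh (L * q * q) trivChar k) := fun i =>
    opT k k trivChar (one_dvd _) i.2.1 i.2.2.1
  let f : Coh (L * q) trivChar k × Coh (L * q) trivChar k →ₗ[k] Coh (L * q * q) trivChar k :=
    LinearMap.coprod (conjB k) (resB k trivChar (dvd_mul_right (L * q) q))
  have hev : opT k k trivChar (one_dvd _) hℓ₀ hℓ₀N φ - (ℓ₀ + 1) • φ
      = (a ℓ₀ - ((ℓ₀ : k) + 1)) • φ := by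
    rw [heig ℓ₀ hℓ₀ hℓ₀N hℓ₀S, sub_smul, ← Nat.cast_smul_eq_nsmul k, Nat.cast_succ]
  obtain ⟨v, hv, hvev⟩ := exists_common_eigen_of_map f T T'
    (fun i j => by
      have h := opT_comm (R := k) (A := k) (χ := trivChar) (one_dvd (L * q)) i.2.1 (hι i) j.2.1 (hι j)
      exact LinearMap.ext fun v => Prod.ext (LinearMap.congr_fun h.eq v.1) (LinearMap.congr_fun h.eq v.2))
    (fun i v => by
      have : Fact i.1.Prime := ⟨i.2.1⟩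
      simp only [f, T, T', LinearMap.coprod_apply, LinearMap.prodMap_apply, map_add]
      rw [conjB_opT k i.2.1 i.2.2.1,
        ← resB_opT k (χ := trivChar) (one_dvd (L * q)) (dvd_mul_right (L * q) q) i.2.1 i.2.2.1])
    (fun i => a i.1) (w := (a ℓ₀ - ((ℓ₀ : k) + 1)) • φ)
    (smul_ne_zero (sub_ne_zero.mpr hℓ₀a) hφ0) (v₀ := (α, β)) (by
      rw [← hev, hαβ]; rfl)
    (fun i => by
      show T' i _ = _
      rw [map_smul, show T' i φ = a i.1 • φ from heig _ i.2.1 i.2.2.1 i.2.2.2, smul_comm])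
  have hev' : ∀ (ℓ : ℕ) (hℓ : ℓ.Prime) (hℓN : ¬ ℓ ∣ L * q), ℓ ∉ bad →
      opT k k trivChar (one_dvd _) hℓ hℓN v.1 = a ℓ • v.1 ∧
      opT k k trivChar (one_dvd _) hℓ hℓN v.2 = a ℓ • v.2 := fun ℓ hℓ hℓN hℓS => by
    have h := hvev ⟨ℓ, hℓ, fun h => hℓN
      ((hℓ.dvd_mul.mp h).elim id fun hq => hq.trans (dvd_mul_left q L)), hℓS⟩
    exact ⟨congrArg Prod.fst h, congrArg Prod.snd h⟩
  by_cases h1 : v.1 = 0
  · exact ⟨v.2, fun h => hv (Prod.ext h1 h), fun ℓ hℓ hℓN hℓS => (hev' ℓ hℓ hℓN hℓS).2⟩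
  · exact ⟨v.1, h1, fun ℓ hℓ hℓN hℓS => (hev' ℓ hℓ hℓN hℓS).1⟩

/-- The same with an auxiliary prime `r ≡ 2` modulo `3` in the level, for any characteristic. -/
theorem exists_eigen_pow_aux (h2 : (2 : k) ≠ 0) (bad : Set ℕ) (a : ℕ → k)
    {φ : Coh (L * q * q) trivChar k} (hφ0 : φ ≠ 0) (hφ : IsBalancedPow φ)
    (heig : ∀ (ℓ : ℕ) (hℓ : ℓ.Prime) (hℓN : ¬ ℓ ∣ L * q * q), ℓ ∉ bad →
      opT k k trivChar (one_dvd _) hℓ hℓN φ = a ℓ • φ)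
    (hne : ∀ Q : ℕ, Q ≠ 0 → ∃ ℓ : ℕ, ℓ.Prime ∧ ¬ ℓ ∣ L * q * q ∧ ℓ ∉ bad ∧ (ℓ : ZMod Q) = 1 ∧
      a ℓ ≠ (ℓ : k) + 1)
    {r : ℕ} (hr : r.Prime) (hr3 : r % 3 = 2) (hrN : ¬ r ∣ L * q * q) (hrk : (r : k) ≠ 0) :
    haveI : NeZero r := ⟨hr.ne_zero⟩
    ∃ θ : Coh (L * r * q) trivChar k, θ ≠ 0 ∧
      ∀ (ℓ : ℕ) (hℓ : ℓ.Prime) (hℓN : ¬ ℓ ∣ L * r * q), ℓ ∉ bad →
        opT k k trivChar (one_dvd _) hℓ hℓN θ = a ℓ • θ := by
  haveI : NeZero r := ⟨hr.ne_zero⟩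
  set φ' := resB k trivChar (mul_dvd_mul_right (mul_dvd_mul_right (dvd_mul_right L r) q) q) φ
    with hφ'
  refine exists_eigen_pow h2 bad a (φ := φ') ?_ (hφ.res (dvd_mul_right L r)) ?_ ?_
    (Or.inr ⟨r, hr, hr3, dvd_mul_left r L⟩)
  · intro h
    refine hφ0 (eq_zero_of_resB_eq_zero hr hrN hrk (AddMonoidHom.ext fun γ => ?_))
    obtain ⟨γ, rfl⟩ := Additive.ofMul.surjective γ
    rw [resB_apply_apply, AddMonoidHom.zero_apply]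
    have hγ : (γ : SL(2, ℤ)) ∈ gammaH (L * r * q * q) trivChar := by
      have := γ.2
      rwa [show L * r * q * q = L * q * q * r by ring]
    have := DFunLike.congr_fun h (Additive.ofMul ⟨(γ : SL(2, ℤ)), hγ⟩)
    rw [hφ', resB_apply_apply] at this
    exact this
  · intro ℓ hℓ hℓN hℓS
    rw [hφ', resB_opT k (χ := trivChar) (one_dvd (L * q * q)) _ hℓ hℓN, heig ℓ hℓ _ hℓS, map_smul]
  · intro Q hQ
    obtain ⟨ℓ, hℓ, hℓN, hℓS, hℓQ, hℓa⟩ := hne (Q * r) (mul_ne_zero hQ hr.ne_zero)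
    refine ⟨ℓ, hℓ, fun h => ?_, hℓS, ?_, hℓa⟩
    · rw [show L * r * q * q = L * q * q * r by ring] at h
      rcases hℓ.dvd_mul.mp h with h | h
      · exact hℓN h
      · obtain rfl := (Nat.prime_dvd_prime_iff_eq hℓ hr).mp h
        have h1 := congrArg (ZMod.castHom (dvd_mul_left ℓ Q) (ZMod ℓ)) hℓQ
        rw [map_natCast, map_one, ZMod.natCast_self] at h1
        exact (haveI : Fact ℓ.Prime := ⟨hr⟩; zero_ne_one h1)
    · have h1 := congrArg (ZMod.castHom (dvd_mul_right Q r) (ZMod Q)) hℓQ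
      rwa [map_natCast, map_one] at h1

end FLTAgent.RT.Carayol
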