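import Fermat.Agent.RT.Carayol.Pow.Roots
import Fermat.Agent.RT.Carayol.Pow.Main
import Fermat.Agent.RT.Carayol.Remove

/-!
# Lowering a power of a prime in a residual level to exponent one

An irreducible semistable `W[p]` of a level divisible by `q ^ k`, `q ≠ p`, `k ≥ 3`, has a level with
`q ^ (k - 1)`, with a further prime `r ≡ 2 (mod 3)` if `p = 3`; with `removeSquare` every exponent
away from `p` comes down to one.
-/

set_option autoImplicit false
set_option linter.style.haveILetI false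
set_option synthInstance.maxHeartbeats 100000

noncomputable section

namespace FLTAgent.RT.Carayol

open ModularCurve AlgebraicCurve WeierstrassCurve CongruenceSubgroup
open FLTAgent.LevelSq FLTAgent.Hecke
open scoped MatrixGroups

local notation "Qbar" => AlgebraicClosure ℚ

variable {W : WeierstrassCurve ℤ} {p : ℕ} [Fact p.Prime]

/-- The geometry at all levels `N q ^ j` with `N` a multiple of a given level prime to `q`. -/
def PowGeometryExists (q : ℕ) [Fact q.Prime] [NeZero q] : Prop :=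
  ∀ (A : ValuationSubring Qbar), A.LiesOverPrime q → ∀ (M : ℕ), 0 < M → ¬ q ∣ M →
    ∃ N : ℕ, 0 < N ∧ M ∣ N ∧ ¬ q ∣ N ∧
      ∀ j : ℕ, 1 ≤ j → ∀ m : ℕ, ¬ q ∣ m → PowGeometryAt q A (N * q ^ j) m

theorem toSeriesQbar_degMap_one (A : ValuationSubring Qbar) {K₁ K₂ : ℕ} (h : K₁ * 1 ∣ K₂)
    (f : MF (urField A) K₁) :
    toSeriesQbar A K₂ (degMap (urField A) 1 h f) = (baseIncl A K₁ f : LaurentSeries Qbar) := by
  rw [toSeriesQbar_apply, coe_degMap, qExpand_one_apply, coe_baseIncl]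

set_option maxHeartbeats 1000000 in
/-- The class of a residual level `M q ^ (j + 2)`, `j ≥ 1`, is balanced. -/
theorem exists_balancedPow_class (hΔ : W.Δ ≠ 0) (hsemi : W.IsSemistableModel) {q : ℕ}
    [Fact q.Prime] [NeZero q] (hqp : q ≠ p) (hgeo : PowGeometryExists q) {M L : ℕ} [NeZero M]
    [NeZero L] (hqM : ¬ q ∣ M) {j : ℕ} (hj : 1 ≤ j) (hL : L = M * q ^ j)
    (hres : W.IsResiduallyModularOfLevel p (L * q * q)) :
    ∃ φ : Coh (L * q * q) trivChar (ZMod p), φ ≠ 0 ∧ IsBalancedPow φ ∧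
      ∀ (ℓ : ℕ) (hℓ : ℓ.Prime) (hℓL : ¬ ℓ ∣ L * q * q), W.IsGoodPrimeFor ℓ → ℓ ≠ p →
        opT (ZMod p) (ZMod p) trivChar (one_dvd _) hℓ hℓL φ = (W.apOfModel ℓ : ZMod p) • φ := by
  have hq : q.Prime := Fact.out
  obtain ⟨A, hA⟩ := Frobenius.exists_liesOverPrime hq
  obtain ⟨x, hx, hx0, hfix⟩ := exists_torsEigen_fixed hΔ hsemi hq hqp hA hres
  obtain ⟨χ, φ, hχ, hφ0, hφ, heig⟩ := exists_coh_of_torsEigen hx hx0
  refine ⟨φ, hφ0, ?_, heig⟩
  obtain ⟨_, hN0, ⟨u, rfl⟩, hqN, hgeoN⟩ := hgeo A hA M (NeZero.pos M) hqM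
  haveI : NeZero u := ⟨fun h => by simp [h] at hN0⟩
  have hu : ¬ q ∣ u := fun h => hqN (h.mul_left M)
  haveI : NeZero (L * u * q * q) :=
    ⟨mul_ne_zero (mul_ne_zero (mul_ne_zero (NeZero.ne L) (NeZero.ne u)) (NeZero.ne q)) (NeZero.ne q)⟩
  have hm : ¬ q ∣ p := fun h => hqp ((Nat.prime_dvd_prime_iff_eq hq Fact.out).1 h)
  have hdvd : L * q * q * 1 ∣ L * u * q * q := by
    rw [mul_one]
    exact mul_dvd_mul_right (mul_dvd_mul_right (dvd_mul_right L u) q) q
  obtain ⟨f, D, hf, hD, hord, hdiv⟩ := exists_ratFun_degMap A 1 hdvd hx.1 hfix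
  have hp0 : p ≠ 0 := (Fact.out : p.Prime).ne_zero
  have hfB : baseIncl A (L * q * q) f ≠ 0 := (map_ne_zero _).2 hf
  obtain ⟨χ', hχ'⟩ := JTors.exists_isRootChar (N := L * q * q) hp0 hfB fun v => ⟨_, (hord v).symm⟩
  obtain rfl : χ' = χ :=
    JTors.IsTorsChar.unique hp0 ⟨D, _, hD, hfB, hord, hχ'⟩ hχ
  refine isBalancedPow_of_roots (u := u) ⟨M * q ^ (j - 1), ?_⟩ hu hp0 ?_ hχ'
    ((map_ne_zero _).2 hf) (toSeriesQbar_degMap_one A hdvd f) hdiv
    φ (rootLog p) (fun X _ u c hu h => rootLog_sum X u c hu h) hφ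
  · rw [hL, mul_left_comm, ← pow_succ', Nat.sub_add_cancel hj]
  · rw [show L * u = M * u * q ^ j by rw [hL]; ring]
    exact hgeoN j hj p hm

/-- **The exponent `k ≥ 3` of `q` in a residual level goes down.** -/
theorem lowerPow (hΔ : W.Δ ≠ 0) (hsemi : W.IsSemistableModel) (hp2 : p ≠ 2)
    (hirr : W.ModRepIsIrreducible p) {q : ℕ} [Fact q.Prime] [NeZero q] (hqp : q ≠ p)
    (hgeo : PowGeometryExists q) {N : ℕ} (hN : 0 < N) (hqN : 3 ≤ N.factorization q)
    (hres : W.IsResiduallyModularOfLevel p N) :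
    ∃ M' : ℕ, 0 < M' ∧ M'.factorization q < N.factorization q ∧
      (∀ l : ℕ, M'.factorization l ≤ max (N.factorization l) 1) ∧
      W.IsResiduallyModularOfLevel p M' := by
  have hq : q.Prime := Fact.out
  set k := N.factorization q with hk
  set M := N / q ^ k with hM
  have hqM : ¬ q ∣ M := Nat.not_dvd_ordCompl hq hN.ne'
  set L := M * q ^ (k - 2) with hL
  have hNL : N = L * q * q := by
    rw [hL, mul_assoc, mul_assoc, ← pow_two q, ← pow_add, Nat.sub_add_cancel (by omega), hM]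
    rw [hk, mul_comm]
    exact (Nat.ordProj_mul_ordCompl_eq_self N q).symm
  haveI : NeZero L := ⟨fun h => by rw [hNL, h] at hN; simp at hN⟩
  haveI : NeZero M := ⟨fun h => NeZero.ne L (by rw [hL, h, zero_mul])⟩
  clear_value L M
  subst hNL
  have hfact : ∀ l, (L * q * q).factorization l =
      L.factorization l + q.factorization l + q.factorization l := fun l => by
    rw [Nat.factorization_mul (mul_ne_zero (NeZero.ne L) hq.ne_zero) hq.ne_zero,
      Nat.factorization_mul (NeZero.ne L) hq.ne_zero, Finsupp.add_apply, Finsupp.add_apply]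
  obtain ⟨φ, hφ0, hφ, heig⟩ :=
    exists_balancedPow_class hΔ hsemi hqp hgeo hqM (j := k - 2) (by omega) hL hres
  have h2 : (2 : ZMod p) ≠ 0 := fun h => hp2 <| (Nat.prime_dvd_prime_iff_eq Fact.out
    Nat.prime_two).1 ((ZMod.natCast_eq_zero_iff _ _).1 (by exact_mod_cast h))
  let bad : Set ℕ := {ℓ | ℓ = p ∨ ¬ W.IsGoodPrimeFor ℓ}
  let a : ℕ → ZMod p := fun ℓ => (W.apOfModel ℓ : ZMod p)
  have heig' : ∀ (ℓ : ℕ) (hℓ : ℓ.Prime) (hℓN : ¬ ℓ ∣ L * q * q), ℓ ∉ bad →
      opT (ZMod p) (ZMod p) trivChar (one_dvd _) hℓ hℓN φ = a ℓ • φ := fun ℓ hℓ hℓN hb => by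
    simp only [bad, Set.mem_ofPred_eq, not_or, not_not] at hb
    exact heig ℓ hℓ hℓN hb.2 hb.1
  have hne : ∀ Q : ℕ, Q ≠ 0 → ∃ ℓ : ℕ, ℓ.Prime ∧ ¬ ℓ ∣ L * q * q ∧ ℓ ∉ bad ∧ (ℓ : ZMod Q) = 1 ∧
      a ℓ ≠ (ℓ : ZMod p) + 1 := fun Q hQ => by
    obtain ⟨ℓ, hℓ, hℓN, hg, hℓp, hℓQ, hne⟩ := exists_notEisenstein hΔ hp2 hirr (L * q * q) hQ
    exact ⟨ℓ, hℓ, hℓN, by simp [bad, hg, hℓp], hℓQ, hne⟩
  by_cases hp3 : p = 3
  · subst hp3
    obtain ⟨r, hr, hrS, -, hr3, -⟩ := FLTAgent.RTIrr.exists_auxiliary_prime_three hΔ hsemi hirr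
      (insert 3 (L * q * q).primeFactors)
    simp only [Finset.mem_insert, not_or] at hrS
    have hrN : ¬ r ∣ L * q * q := fun h =>
      hrS.2 (Nat.mem_primeFactors.2 ⟨hr, h, NeZero.ne _⟩)
    have hrk : (r : ZMod 3) ≠ 0 := fun h => hrS.1
      ((Nat.prime_dvd_prime_iff_eq Nat.prime_three hr).1 ((ZMod.natCast_eq_zero_iff _ _).1 h)).symm
    haveI : NeZero r := ⟨hr.ne_zero⟩
    obtain ⟨θ, hθ0, hθ⟩ := exists_eigen_pow_aux h2 bad a hφ0 hφ heig' hne hr hr3 hrN hrk
    refine ⟨L * r * q, Nat.pos_of_ne_zero (NeZero.ne _), ?_, fun l => ?_,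
      isResiduallyModularOfLevel_of_coh hΔ hp2 hirr (Or.inr (nuThree_eq_zero_of_dvd hr hr3
        (dvd_mul_of_dvd_left (dvd_mul_left r L) q))) hθ0
        fun ℓ hℓ hℓL hg hℓp => hθ ℓ hℓ hℓL (by simp [bad, hg, hℓp])⟩
    all_goals
      rw [Nat.factorization_mul (NeZero.ne _) hq.ne_zero, Finsupp.add_apply,
        Nat.factorization_mul (NeZero.ne L) hr.ne_zero, Finsupp.add_apply]
    · have hrq : r ≠ q := fun e => hrN (by rw [e]; exact dvd_mul_left q _)
      rw [hk, hfact, hr.factorization, Finsupp.single_eq_of_ne hrq.symm, hq.factorization_self]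
      omega
    · rw [hr.factorization, hfact]
      rcases eq_or_ne l r with rfl | hlr
      · rw [Finsupp.single_eq_same, Nat.factorization_eq_zero_of_not_dvd (n := L)
          (fun h => hrN ((h.mul_right q).mul_right q)), hq.factorization,
          Finsupp.single_eq_of_ne (fun e => hrN (by rw [e]; exact dvd_mul_left q _))]
        omega
      · rw [Finsupp.single_eq_of_ne hlr]
        omega
  · obtain ⟨θ, hθ0, hθ⟩ := exists_eigen_pow h2 bad a hφ0 hφ heig' hne (Or.inl fun h => hp3 <|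
      (Nat.prime_dvd_prime_iff_eq Fact.out Nat.prime_three).1
        ((ZMod.natCast_eq_zero_iff _ _).1 (by exact_mod_cast h)))
    refine ⟨L * q, Nat.pos_of_ne_zero (NeZero.ne _), ?_, fun l => ?_,
      isResiduallyModularOfLevel_of_coh hΔ hp2 hirr (Or.inl hp3) hθ0
        fun ℓ hℓ hℓL hg hℓp => hθ ℓ hℓ hℓL (by simp [bad, hg, hℓp])⟩
    all_goals rw [Nat.factorization_mul (NeZero.ne L) hq.ne_zero, Finsupp.add_apply]
    · rw [hk, hfact, hq.factorization_self]; omega
    · rw [hfact]; omega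

/-- **Every exponent away from `p` comes down to one**, possibly with new simple primes. -/
theorem exists_lowerPow_le_one (hΔ : W.Δ ≠ 0) (hsemi : W.IsSemistableModel) (hp2 : p ≠ 2)
    (hirr : W.ModRepIsIrreducible p)
    (hbase : ∀ q : ℕ, ∀ [Fact q.Prime], q ≠ p → BaseModelExists q)
    (hgeo : ∀ q : ℕ, ∀ [Fact q.Prime] [NeZero q], q ≠ p → PowGeometryExists q) {N : ℕ}
    (hN : 0 < N) (hres : W.IsResiduallyModularOfLevel p N) :
    ∃ M' : ℕ, 0 < M' ∧ (∀ l : ℕ, l ≠ p → M'.factorization l ≤ 1) ∧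
      M'.factorization p ≤ max (N.factorization p) 1 ∧ W.IsResiduallyModularOfLevel p M' := by
  classical
  generalize hd : ∑ l ∈ N.primeFactors.erase p, (N.factorization l - 1) = d
  induction d using Nat.strong_induction_on generalizing N with
  | _ d ih =>
    by_cases hex : ∃ q, q ≠ p ∧ 2 ≤ N.factorization q
    · obtain ⟨q, hqp, hq2⟩ := hex
      have hq : q.Prime := by
        by_contra h
        rw [Nat.factorization_eq_zero_of_not_prime N h] at hq2
        omega
      haveI := Fact.mk hq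
      haveI : NeZero q := ⟨hq.ne_zero⟩
      obtain ⟨M', hM0, hlt, hle, hM'⟩ : ∃ M' : ℕ, 0 < M' ∧
          M'.factorization q < N.factorization q ∧
          (∀ l : ℕ, M'.factorization l ≤ max (N.factorization l) 1) ∧
          W.IsResiduallyModularOfLevel p M' := by
        rcases eq_or_lt_of_le hq2 with h | h
        · obtain ⟨M', h0, h1, h2, h3⟩ := removeSquare_step hΔ hsemi hp2 hirr hbase hN hqp h.symm hres
          exact ⟨M', h0, by omega, h2, h3⟩
        · exact lowerPow hΔ hsemi hp2 hirr hqp (hgeo q hqp) hN h hres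
      have hsub : ∀ l, M'.factorization l - 1 ≤ N.factorization l - 1 := fun l => by
        have := hle l; omega
      have hlt' : ∑ l ∈ M'.primeFactors.erase p, (M'.factorization l - 1) < d := by
        rw [← hd]
        calc ∑ l ∈ M'.primeFactors.erase p, (M'.factorization l - 1)
            = ∑ l ∈ (M'.primeFactors.erase p).filter (fun l => l ∈ N.primeFactors.erase p),
                (M'.factorization l - 1) := by
              refine (Finset.sum_filter_of_ne fun l hl hne => ?_).symm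
              have h1 : 2 ≤ N.factorization l := by have := hle l; omega
              exact Finset.mem_erase.2 ⟨(Finset.mem_erase.1 hl).1, Nat.mem_primeFactors.2
                ⟨Nat.prime_of_mem_primeFactors (Finset.mem_of_mem_erase hl),
                  Nat.dvd_of_factorization_pos (by omega), hN.ne'⟩⟩
          _ ≤ ∑ l ∈ N.primeFactors.erase p, (M'.factorization l - 1) :=
              Finset.sum_le_sum_of_subset (fun l hl => (Finset.mem_filter.1 hl).2)
          _ < _ := Finset.sum_lt_sum (fun l _ => hsub l) ⟨q, Finset.mem_erase.2 ⟨hqp,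
                Nat.mem_primeFactors.2 ⟨hq, Nat.dvd_of_factorization_pos (by omega), hN.ne'⟩⟩,
                by omega⟩
      obtain ⟨M'', h0, h1, h2, h3⟩ := ih _ hlt' hM0 hM' rfl
      exact ⟨M'', h0, h1, h2.trans (by have := hle p; omega), h3⟩
    · push Not at hex
      exact ⟨N, hN, fun l hl => by have := hex l hl; omega, le_max_left _ _, hres⟩

end FLTAgent.RT.Carayol
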