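import Fermat.Agent.RT.Carayol.Pow.Lift
import Fermat.Agent.RT.Carayol.Level

/-!
# Balanced classes at level `L q²` with `q ∣ L`

`IsBalancedPow φ` is the condition produced by the geometry of an inertia-fixed torsion class at a
level divisible by `q³`.  For such a class `(T ℓ - (ℓ + 1)) φ` is a sum of the two pullbacks from
level `L q`.  The formal part does not use `q ∣ L`.
-/

set_option autoImplicit false
set_option linter.style.haveILetI false

noncomputable section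

namespace FLTAgent.RT.Carayol

open LevelRaise CongruenceSubgroup
open scoped MatrixGroups
open ModularGroup

variable {L q : ℕ} [NeZero L] [NeZero q] {A : Type*} [AddCommGroup A]

omit [NeZero L] [NeZero q] in
theorem upper0_mul_le : upper0 (L * q) q ≤ upper0 L q := fun _ h =>
  ⟨gamma0_le (dvd_mul_right L q) h.1, h.2⟩

open Classical in
/-- The cocycle of the class kills, on a principal congruence subgroup, the weights with zero sums
along the fibres of the maps to `Cos Γ₀(L q)` and to `Cos (Γ₀(L) ∩ Γ⁰(q))`. -/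
def IsBalancedPow (φ : Coh (L * q * q) trivChar A) : Prop :=
  letI := Fintype.ofFinite (Cos (upper0 (L * q) q))
  ∃ Q : ℕ, Q ≠ 0 ∧ Gamma Q ≤ upper0 (L * q) q ∧
    ∀ k ∈ Gamma Q, ∀ c : Cos (upper0 (L * q) q) → ℤ,
      (∀ y, ∑ x ∈ Finset.univ.filter (fun x => cosMap (upper0_le (L * q) q) x = y), c x = 0) →
      (∀ y, ∑ x ∈ Finset.univ.filter
        (fun x => cosMap (upper0_mul_le (L := L) (q := q)) x = y), c x = 0) →
      ∑ x, c x • homCocycle (upVer (L * q) q φ) k x = 0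

omit [NeZero L] in
theorem conjLE_gUp_mono (g : Gamma0 (L * q * q)) :
    ((conjLE_gUp L q).hom ⟨(g : SL(2, ℤ)), gamma0_mul_le (L * q) q g.2⟩ : SL(2, ℤ)) =
      ((conjLE_gUp (L * q) q).hom g : SL(2, ℤ)) :=
  eq_of_mul_conj det_gUp_pos ((conjLE_gUp L q).spec _) ((conjLE_gUp (L * q) q).spec g)

variable {R : Type*} [CommRing R] [Module R A]

/-- A balanced class is old up to `T ℓ - (ℓ + 1)`, for `ℓ ≡ 1` modulo a suitable `Q`. -/
theorem exists_old_of_isBalancedPow (h2 : Function.Bijective fun a : A => 2 • a)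
    (h3 : Function.Bijective (fun a : A => 3 • a) ∨ ∀ x : Cos (Gamma0 L), (S * T) • x ≠ x)
    {φ : Coh (L * q * q) trivChar A}
    (hφ1 : φ (Additive.ofMul ⟨-1, gamma0_le_triv _ (neg_one_mem_gamma0 _)⟩) = 0)
    (hφ : IsBalancedPow φ) :
    ∃ Q : ℕ, Q ≠ 0 ∧ ∀ ℓ : ℕ, ∀ (hℓ : ℓ.Prime) (hℓN : ¬ ℓ ∣ L * q * q), (ℓ : ZMod Q) = 1 →
      ∃ α β : Coh (L * q) trivChar A,
        opT R A trivChar (one_dvd _) hℓ hℓN φ - (ℓ + 1) • φ
          = conjB R α + resB R trivChar (dvd_mul_right (L * q) q) β := by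
  classical
  letI := Fintype.ofFinite (Cos (upper0 (L * q) q))
  obtain ⟨Q, hQ0, hQ, hbal⟩ := hφ
  have hQ' : Gamma (Q * q) ≤ upper0 (L * q) q :=
    (Gamma_le_of_dvd (dvd_mul_right Q q)).trans hQ
  refine ⟨Q * q, mul_ne_zero hQ0 (NeZero.ne q), fun ℓ hℓ hℓN h1 => ?_⟩
  have : Fact ℓ.Prime := ⟨hℓ⟩
  have hℓQ : ¬ ℓ ∣ Q * q := fun h => by
    have h0 : ((ℓ : ℕ) : ZMod ℓ) = 1 := by
      have := congrArg (ZMod.castHom h (ZMod ℓ)) h1
      rwa [map_natCast, map_one] at this
    rw [ZMod.natCast_self] at h0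
    exact zero_ne_one h0
  set ψ := upVer (L * q) q φ with hψ
  have hψ1 : ψ (Additive.ofMul ⟨-1, neg_one_mem_upper0 _ _⟩) = 0 := by
    rw [← hφ1]
    show φ (Additive.ofMul ⟨((conjLE_gDown (L * q) q).hom ⟨-1, neg_one_mem_upper0 _ _⟩ :
      SL(2, ℤ)), _⟩) = _
    congr 2
    refine Subtype.ext ?_
    have := (conjLE_gDown (L * q) q).hom_eq (γ := ⟨-1, neg_one_mem_upper0 _ _⟩)
      (δ := ⟨-1, neg_one_mem_gamma0 _⟩) (by simp [matSL])
    exact congrArg (fun z : Gamma0 (L * q * q) => (z : SL(2, ℤ))) this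
  obtain ⟨α, β, hαβ⟩ := exists_old_of_balanced₂ (upper0_le (L * q) q) (upper0_mul_le (L := L))
    (neg_one_mem_upper0 _ _) hQ' h2
    (h3.imp_right fun h => ⟨Gamma0 L, gamma0_mul_le L q, upper0_le L q, h⟩) ψ hψ1
    (fun k hk => hbal k (Gamma_le_of_dvd (dvd_mul_right Q q) hk)) hℓQ h1
  refine ⟨(toG0 (L * q)).symm α,
    (toG0 (L * q)).symm (β.comp (MonoidHom.toAdditive (conjLE_gUp L q).hom)),
    AddMonoidHom.ext fun γ => ?_⟩
  obtain ⟨γ, rfl⟩ := Additive.ofMul.surjective γ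
  set g : Gamma0 (L * q * q) := ⟨γ, gammaH_le γ.2⟩
  set d : upper0 (L * q) q := (conjLE_gUp (L * q) q).hom g with hd
  have hdg : (conjLE_gDown (L * q) q).hom d = g := by
    refine (conjLE_gDown (L * q) q).hom_eq (mul_right_cancel_of_det_pos (det_gUp_pos (ℓ := q)) ?_)
    rw [Matrix.mul_assoc, ← (conjLE_gUp (L * q) q).spec g]
    have hdu : gDown q * gUp q = (q : ℤ) • (1 : Matrix (Fin 2) (Fin 2) ℤ) := by
      ext r s
      fin_cases r <;> fin_cases s <;> simp [Matrix.mul_apply, Fin.sum_univ_two]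
    rw [← Matrix.mul_assoc, hdu, Matrix.mul_assoc, hdu, smul_mul_assoc, Matrix.one_mul,
      Matrix.mul_smul, Matrix.mul_one]
  have h := hαβ d
  rw [famTransfer_upVer (R := R) hℓN hℓQ h1 hQ'] at h
  have hup : ∀ θ : Coh (L * q * q) trivChar A,
      upVer (L * q) q θ (Additive.ofMul d) = θ (Additive.ofMul γ) := fun θ => by
    show θ (Additive.ofMul ⟨((conjLE_gDown (L * q) q).hom d : SL(2, ℤ)), _⟩) = _
    refine congrArg (fun z : gammaH (L * q * q) trivChar => θ (Additive.ofMul z)) ?_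
    exact (Subtype.ext (congrArg (fun z : Gamma0 (L * q * q) => (z : SL(2, ℤ))) hdg))
  rw [hψ, hup, hup] at h
  rw [AddMonoidHom.sub_apply, AddMonoidHom.nsmul_apply, h, AddMonoidHom.add_apply,
    conjB_apply_apply, resB_apply_apply]
  refine congrArg₂ (· + ·) ?_ ?_
  · show α (Additive.ofMul ⟨(d : SL(2, ℤ)), upper0_le _ _ d.2⟩) =
      α (Additive.ofMul ((conjLE_gUp' (L * q) q).hom g))
    rw [(conjLE_gUp' (L * q) q).hom_eq (δ := ⟨(d : SL(2, ℤ)), upper0_le _ _ d.2⟩)
      ((conjLE_gUp (L * q) q).spec g)]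
  · show β (Additive.ofMul ⟨(d : SL(2, ℤ)), upper0_mul_le d.2⟩) =
      β (Additive.ofMul ((conjLE_gUp L q).hom ⟨(g : SL(2, ℤ)), gamma0_mul_le (L * q) q g.2⟩))
    refine congrArg (fun z : upper0 L q => β (Additive.ofMul z)) (Subtype.ext ?_)
    exact (conjLE_gUp_mono g).symm

/-- Balanced classes restrict to balanced classes. -/
theorem IsBalancedPow.res {L' : ℕ} [NeZero L'] (hL : L ∣ L') {φ : Coh (L * q * q) trivChar A}
    (hφ : IsBalancedPow φ) :
    IsBalancedPow (resB R trivChar (mul_dvd_mul_right (mul_dvd_mul_right hL q) q) φ) := by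
  classical
  letI := Fintype.ofFinite (Cos (upper0 (L * q) q))
  letI := Fintype.ofFinite (Cos (upper0 (L' * q) q))
  obtain ⟨Q, hQ0, hQ, hbal⟩ := hφ
  have hle : upper0 (L' * q) q ≤ upper0 (L * q) q := fun γ hγ =>
    ⟨gamma0_le (mul_dvd_mul_right hL q) hγ.1, hγ.2⟩
  have hle₂ : upper0 L' q ≤ upper0 L q := fun γ hγ => ⟨gamma0_le hL hγ.1, hγ.2⟩
  have hQ' : Gamma (Q * (L' * q * q)) ≤ upper0 (L' * q) q := fun γ hγ => by
    have h := Gamma_le_of_dvd (dvd_mul_left (L' * q * q) Q) hγ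
    rw [Gamma_mem] at h
    refine ⟨mem_gamma0_iff.mpr ?_, ?_⟩
    · exact (Int.natCast_dvd_natCast.mpr (dvd_mul_right (L' * q) q)).trans
        ((ZMod.intCast_zmod_eq_zero_iff_dvd _ _).mp h.2.2.1)
    · exact (Int.natCast_dvd_natCast.mpr (dvd_mul_left q (L' * q))).trans
        ((ZMod.intCast_zmod_eq_zero_iff_dvd _ _).mp h.2.1)
  refine ⟨Q * (L' * q * q), mul_ne_zero hQ0 (NeZero.ne _), hQ', fun k hk c hc₁ hc₂ => ?_⟩
  have hkQ : k ∈ Gamma Q := Gamma_le_of_dvd (dvd_mul_right Q (L' * q * q)) hk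
  set π := cosMap hle
  let c₀ : Cos (upper0 (L * q) q) → ℤ := fun y =>
    ∑ x ∈ Finset.univ.filter (fun x => π x = y), c x
  have hfib : ∀ {Z Z' : Type} [DecidableEq Z] [DecidableEq Z'] [Fintype Z']
      (f : Cos (upper0 (L * q) q) → Z) (f' : Cos (upper0 (L' * q) q) → Z') (u : Z' → Z),
      (∀ x, f (π x) = u (f' x)) → (∀ y, ∑ x ∈ Finset.univ.filter (fun x => f' x = y), c x = 0) →
      ∀ z, ∑ y ∈ Finset.univ.filter (fun y => f y = z), c₀ y = 0 := by
    intro Z Z' _ _ _ f f' u hu h z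
    simp only [c₀]
    rw [Finset.sum_fiberwise_eq_sum_filter]
    simp only [Finset.mem_filter, Finset.mem_univ, true_and, hu]
    rw [← Finset.sum_fiberwise_of_maps_to (g := f')
      (t := Finset.univ.filter (fun y => u y = z)) (fun x hx => by simpa using hx)]
    refine Finset.sum_eq_zero fun y hy => ?_
    rw [Finset.filter_filter]
    rw [← h y]
    refine Finset.sum_congr (Finset.filter_congr fun x _ => ⟨fun hx => hx.2, fun hx => ⟨?_, hx⟩⟩)
      fun _ _ => rfl
    rw [hx]; simpa using hy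
  haveI : (upper0 L' q).FiniteIndex := finiteIndex_upper0 L' q
  letI := Fintype.ofFinite (Cos (Gamma0 (L' * q)))
  letI := Fintype.ofFinite (Cos (upper0 L' q))
  have hh := hbal k hkQ c₀
    (hfib _ _ (cosMap (gamma0_le (mul_dvd_mul_right hL q))) (fun x => by
      induction x using QuotientGroup.induction_on with
      | H a => rfl) hc₁)
    (hfib _ _ (cosMap hle₂) (fun x => by
      induction x using QuotientGroup.induction_on with
      | H a => rfl) hc₂)
  rw [← hh]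
  simp only [c₀, Finset.sum_smul]
  rw [← Finset.sum_fiberwise_of_maps_to (g := π) (t := Finset.univ) (fun x _ => Finset.mem_univ _)]
  refine Finset.sum_congr rfl fun y _ => Finset.sum_congr rfl fun x hx => ?_
  obtain rfl : π x = y := by simpa using hx
  congr 1
  -- the cocycles agree at elements acting trivially
  have hkx : k • x = x := smul_eq_of_mem_gamma hQ' hk x
  have hkx' : k • π x = π x := smul_eq_of_mem_gamma hQ hkQ _
  obtain ⟨e, he⟩ : ∃ e : upper0 (L * q) q, (π x).out = x.out * e := by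
    refine ⟨⟨x.out⁻¹ * (π x).out, QuotientGroup.eq.mp ?_⟩, by simp⟩
    show cosMap hle (x.out : Cos (upper0 (L' * q) q)) = _
    rw [QuotientGroup.out_eq', QuotientGroup.out_eq']
  have hcell : (cellG k (π x)) = e⁻¹ * ⟨_, hle (cellG k x).2⟩ * e := by
    refine Subtype.ext ?_
    rw [cellG_of_fixed hkx', Subgroup.coe_mul, Subgroup.coe_mul, Subgroup.coe_inv]
    show _ = (e : SL(2, ℤ))⁻¹ * (cellG k x : SL(2, ℤ)) * e
    rw [cellG_of_fixed hkx, he]
    group
  simp only [homCocycle, hcell, ofMul_mul, ofMul_inv, map_add, map_neg]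
  rw [neg_add_cancel_comm]
  show toG0 (L' * q * q)
      (resB R trivChar (mul_dvd_mul_right (mul_dvd_mul_right hL q) q) φ) (Additive.ofMul _) =
    toG0 (L * q * q) φ (Additive.ofMul _)
  rw [toG0_apply, toG0_apply, resB_apply_apply]
  congr 2
  refine Subtype.ext ?_
  exact congrArg (fun z : Gamma0 (L * q * q) => (z : SL(2, ℤ)))
    (((conjLE_gDown (L * q) q).hom_eq (γ := ⟨_, hle (cellG k x).2⟩)
      (δ := ⟨_, gamma0_le (mul_dvd_mul_right (mul_dvd_mul_right hL q) q)
        ((conjLE_gDown (L' * q) q).hom (cellG k x)).2⟩)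
      ((conjLE_gDown (L' * q) q).spec (cellG k x))).symm)

end FLTAgent.RT.Carayol
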