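import Fermat.Agent.RT.Carayol.Lift

/-!
# Balanced classes of the intersection of two subgroups are old up to an Eisenstein operator

`Δ ≤ Γ₁` and `Δ ≤ Γ₂`. If the cocycle of `ψ` kills, on a principal congruence subgroup, the weights
with zero sums along the fibres of `Cos Δ → Cos Γ₁` and `Cos Δ → Cos Γ₂`, then
`T ℓ ψ - (ℓ + 1) ψ` comes from `Γ₁` and `Γ₂`, for `ℓ ≡ 1` modulo the level.
-/

set_option autoImplicit false

noncomputable section

namespace FLTAgent.RT.Carayol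

open LevelRaise CongruenceSubgroup
open scoped MatrixGroups
open ModularGroup

variable {Δ Γ₁ Γ₂ : Subgroup SL(2, ℤ)} (hle₁ : Δ ≤ Γ₁) (hle₂ : Δ ≤ Γ₂) {A : Type*}
  [AddCommGroup A]

/-- `T ℓ ψ - (ℓ + 1) ψ` comes from the two overgroups. -/
theorem exists_old_of_balanced₂ [Δ.FiniteIndex] [Fintype (Cos Δ)] [DecidableEq (Cos Γ₁)]
    [DecidableEq (Cos Γ₂)] (hneg : (-1 : SL(2, ℤ)) ∈ Δ) {Q : ℕ} (hQ : Gamma Q ≤ Δ)
    (h2 : Function.Bijective fun a : A => 2 • a)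
    (h3 : Function.Bijective (fun a : A => 3 • a) ∨
      ∃ Γ'' : Subgroup SL(2, ℤ), Γ₁ ≤ Γ'' ∧ Γ₂ ≤ Γ'' ∧ ∀ x : Cos Γ'', (S * T) • x ≠ x)
    (ψ : Additive Δ →+ A) (hψ1 : ψ (Additive.ofMul ⟨-1, hneg⟩) = 0)
    (hbal : ∀ k ∈ Gamma Q, ∀ c : Cos Δ → ℤ,
      (∀ y, ∑ x ∈ Finset.univ.filter (fun x => cosMap hle₁ x = y), c x = 0) →
      (∀ y, ∑ x ∈ Finset.univ.filter (fun x => cosMap hle₂ x = y), c x = 0) →
      ∑ x, c x • homCocycle ψ k x = 0)
    {ℓ : ℕ} [Fact ℓ.Prime] (hℓQ : ¬ ℓ ∣ Q) (h1 : (ℓ : ZMod Q) = 1) :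
    ∃ (α : Additive Γ₁ →+ A) (β : Additive Γ₂ →+ A), ∀ γ : Δ,
      famTransfer (isFam_congRep hℓQ h1 Δ hQ) ψ (Additive.ofMul γ) - (ℓ + 1) • ψ (Additive.ofMul γ)
        = α (Additive.ofMul ⟨γ, hle₁ γ.2⟩) + β (Additive.ofMul ⟨γ, hle₂ γ.2⟩) := by
  classical
  have : Γ₁.FiniteIndex := Subgroup.finiteIndex_of_le hle₁
  have : Γ₂.FiniteIndex := Subgroup.finiteIndex_of_le hle₂
  choose σ δ hδ hδQ using fun g : SL(2, ℤ) => exists_congRep_transfer hℓQ h1 g
  set a := homCocycle ψ with ha_def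
  have ha : IsCocycle a := isCocycle_homCocycle ψ
  set b : SL(2, ℤ) → Cos Δ → A := fun g x => ∑ i, a (δ g i) x - (ℓ + 1) • a g x with hb_def
  have hcard : Fintype.card (Option (ZMod ℓ)) = ℓ + 1 := by simp
  have hstep : ∀ g i x, δ g i • x = g • x := fun g i x => by
    have h := smul_eq_of_mem_gamma hQ (hδQ g i) x
    rw [mul_smul] at h
    conv_rhs => rw [← h, smul_inv_smul]
  have hbc : IsCocycle b := fun g h x => by
    have e := congRep_cofactor_unique hℓQ (hδ (g * h)) (σ' := (σ g).trans (σ h))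
      (δ' := fun i => δ g i * δ h (σ g i)) fun i => by
        rw [matSL_mul, ← Matrix.mul_assoc, hδ, Matrix.mul_assoc, hδ, ← Matrix.mul_assoc,
          ← matSL_mul]
        rfl
    simp only [hb_def, e, ha _ _ x, hstep, Finset.sum_add_distrib, smul_add]
    rw [Equiv.sum_comp (σ g) (fun i => a (δ h i) x)]
    abel
  have hb1 : ∀ x, b (-1) x = 0 := fun x => by
    have e := congRep_cofactor_unique hℓQ (hδ (-1)) (σ' := 1) (δ' := fun _ => -1) fun i => by
      simp [matSL]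
    simp [hb_def, e, ha_def, homCocycle_neg_one hneg hψ1]
  letI : MulAction SL(2, ℤ) (Cos Γ₁ ⊕ Cos Γ₂) :=
    { smul := fun g => Sum.map (g • ·) (g • ·)
      one_smul := by rintro (y | y) <;> exact congrArg _ (one_smul _ y)
      mul_smul := by rintro g h (y | y) <;> exact congrArg _ (mul_smul g h y) }
  let p₁ : Cos Δ → Cos Γ₁ ⊕ Cos Γ₂ := fun x => Sum.inl (cosMap hle₁ x)
  let p₂ : Cos Δ → Cos Γ₁ ⊕ Cos Γ₂ := fun x => Sum.inr (cosMap hle₂ x)
  have hK : ∀ g, ∃ f f' : Cos Γ₁ ⊕ Cos Γ₂ → A, ∀ x, b g x = f (p₁ x) + f' (p₂ x) := fun g => by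
    have hi : ∀ i, ∃ (f : Cos Γ₁ → A) (f' : Cos Γ₂ → A),
        ∀ x, a (g⁻¹ * δ g i) x = f (cosMap hle₁ x) + f' (cosMap hle₂ x) := fun i =>
      exists_potential _ _ _ (hbal _ (hδQ g i))
    choose f f' hf using hi
    refine ⟨Sum.elim (∑ i, f i) 0, Sum.elim 0 (∑ i, f' i), fun x => ?_⟩
    have e : ∀ i, a (δ g i) x = a g x + a (g⁻¹ * δ g i) x := fun i => by
      conv_lhs => rw [← mul_inv_cancel_left g (δ g i)]
      rw [ha, smul_eq_of_mem_gamma hQ (hδQ g i)]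
    simp only [p₁, p₂, Sum.elim_inl, Sum.elim_inr, hb_def, e, hf, Finset.sum_apply,
      Finset.sum_add_distrib, Finset.sum_const, Finset.card_univ, hcard]
    abel
  have hn' : ∀ y : Cos Γ₁ ⊕ Cos Γ₂, (-1 : SL(2, ℤ)) • y = y := by
    rintro (y | y)
    · exact congrArg Sum.inl (neg_one_smul_cos (hle₁ hneg) y)
    · exact congrArg Sum.inr (neg_one_smul_cos (hle₂ hneg) y)
  have hp₁ : ∀ (g : SL(2, ℤ)) x, p₁ (g • x) = g • p₁ x := fun g x =>
    congrArg Sum.inl (cosMap_smul hle₁ g x)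
  have hp₂ : ∀ (g : SL(2, ℤ)) x, p₂ (g • x) = g • p₂ x := fun g x =>
    congrArg Sum.inr (cosMap_smul hle₂ g x)
  obtain ⟨a₁, a₂, ha₁, ha₂, hdec⟩ := exists_lift_cocycle hp₁ hp₂ hn' h2
    (h3.imp_right fun ⟨Γ'', h₁, h₂, hfree⟩ => by
      have : Γ''.FiniteIndex := Subgroup.finiteIndex_of_le h₁
      let ι : Cos Γ'' → ℕ := fun z => (Finite.equivFin (Cos Γ'') z : ℕ)
      have hι : Function.Injective ι := Fin.val_injective.comp (Equiv.injective _)
      let π : Cos Γ₁ ⊕ Cos Γ₂ → Cos Γ'' := Sum.elim (cosMap h₁) (cosMap h₂)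
      have hπ : ∀ (g : SL(2, ℤ)) y, π (g • y) = g • π y := by
        rintro g (y | y)
        · exact cosMap_smul h₁ g y
        · exact cosMap_smul h₂ g y
      have hU3 : ∀ z : Cos Γ'', (S * T) • (S * T) • (S * T) • z = z := fun z => by
        rw [← mul_smul, ← mul_smul, mul_assoc (S * T), ← pow_two, ← pow_succ', ST_cube_eq,
          neg_one_smul_cos (h₁ (hle₁ hneg))]
      refine ⟨fun y => ι (π y) < ι ((S * T) • π y) ∧ ι (π y) < ι ((S * T) • (S * T) • π y),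
        fun y => ?_, fun x => ?_⟩
      · simp only [hπ, hU3]
        have h0 := hfree (π y)
        set z := π y
        have d01 : ι z ≠ ι ((S * T) • z) := fun h => h0 (hι h).symm
        have d12 : ι ((S * T) • z) ≠ ι ((S * T) • (S * T) • z) := fun h =>
          h0 ((MulAction.injective (S * T : SL(2, ℤ))) (hι h)).symm
        have d02 : ι z ≠ ι ((S * T) • (S * T) • z) := fun h => h0 (by
          have := congrArg ((S * T) • ·) (hι h)
          simp only [hU3] at this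
          exact this)
        omega
      · have hp : π (p₁ x) = π (p₂ x) := by
          induction x using QuotientGroup.induction_on with
          | H c => rfl
        simp only [hp]) hbc hb1 hK
  let A₁ : SL(2, ℤ) → Cos Γ₁ → A := fun g y => a₁ g (Sum.inl y)
  let A₂ : SL(2, ℤ) → Cos Γ₂ → A := fun g y => a₂ g (Sum.inr y)
  have hA₁ : IsCocycle A₁ := fun g h y => ha₁ g h (Sum.inl y)
  have hA₂ : IsCocycle A₂ := fun g h y => ha₂ g h (Sum.inr y)
  refine ⟨baseHom A₁ hA₁, baseHom A₂ hA₂, fun γ => ?_⟩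
  have hδΔ : ∀ i, δ (γ : SL(2, ℤ)) i ∈ Δ := fun i => by
    simpa using Δ.mul_mem γ.2 (hQ (hδQ γ i))
  have h := hdec γ (cosBase Δ)
  simp only [p₁, p₂, cosMap_base] at h
  rw [hb_def] at h
  simp only [ha_def] at h
  rw [Finset.sum_congr rfl (g := fun i => ψ (Additive.ofMul ⟨_, hδΔ i⟩))
      fun i _ => homCocycle_base ψ ⟨_, hδΔ i⟩, homCocycle_base ψ γ] at h
  rw [famTransfer_apply _ ψ γ (σ := σ γ) (δ := fun i => ⟨_, hδΔ i⟩) (hδ γ), h, baseHom_apply,
    baseHom_apply]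

end FLTAgent.RT.Carayol
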