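import Fermat.Agent.RT.Carayol.Pow.Level
import Fermat.Agent.RT.Carayol.Geom.Pairs

/-!
# Balanced classes from cosets in an auxiliary level

For `q ∣ L` and `u` prime to `q` the cosets of `Γ₀(L q) ∩ Γ⁰(q)` in `Γ₀(L)` have representatives in
`Γ₀(L u)`.
-/

set_option autoImplicit false
set_option linter.style.haveILetI false
set_option linter.unusedSectionVars false

noncomputable section

namespace FLTAgent.RT.Carayol

open LevelRaise CongruenceSubgroup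
open scoped MatrixGroups

variable {L q u : ℕ} [NeZero L] [Fact q.Prime]

local instance : NeZero q := ⟨(Fact.out : q.Prime).ne_zero⟩

theorem intCast_ne_zero_of_gamma0 (hqL : q ∣ L) {e : SL(2, ℤ)} (he : e ∈ Gamma0 L) :
    (matSL e 0 0 : ZMod q) ≠ 0 ∧ (matSL e 1 1 : ZMod q) ≠ 0 := by
  have h0 : (matSL e 1 0 : ZMod q) = 0 := (ZMod.intCast_zmod_eq_zero_iff_dvd _ _).mpr
    ((Int.natCast_dvd_natCast.mpr hqL).trans (mem_gamma0_iff.mp he))
  have hd := det_mod (q := q) e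
  rw [h0, mul_zero, sub_zero] at hd
  exact ⟨fun h => by simp [h] at hd, fun h => by simp [h] at hd⟩

/-- Every element of `Γ₀(L)` is taken into `Γ₀(L q) ∩ Γ⁰(q)` by one of `Γ₀(L u)`. -/
theorem exists_gamma0_mul_mem (hqL : q ∣ L) (hu : ¬ q ∣ u) {e : SL(2, ℤ)} (he : e ∈ Gamma0 L) :
    ∃ h ∈ Gamma0 (L * u), h * e ∈ upper0 (L * q) q := by
  obtain ⟨h00, h11⟩ := intCast_ne_zero_of_gamma0 hqL he
  have hu0 : (u : ZMod q) ≠ 0 := by rwa [Ne, ZMod.natCast_eq_zero_iff]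
  obtain ⟨i, hi⟩ := ZMod.intCast_surjective
    (-(matSL e 0 1 : ZMod q) / (matSL e 1 1 : ZMod q))
  set T₁ : SL(2, ℤ) := slMk 1 i 0 1 (by ring)
  have hT : T₁ * e ∈ Gamma0 L ∧ (matSL (T₁ * e) 0 1 : ZMod q) = 0 := by
    refine ⟨mul_mem (mem_gamma0_iff.mpr (by simp [T₁])) he, ?_⟩
    rw [intCast_mul_apply]
    simp [T₁, hi]
    field_simp
    ring
  obtain ⟨c, hc⟩ := mem_gamma0_iff.mp hT.1
  obtain ⟨h00', -⟩ := intCast_ne_zero_of_gamma0 hqL hT.1
  obtain ⟨j, hj⟩ := ZMod.intCast_surjective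
    (-(c : ZMod q) / ((u : ZMod q) * (matSL (T₁ * e) 0 0 : ZMod q)))
  set U₁ : SL(2, ℤ) := slMk 1 0 ((L : ℤ) * u * j) 1 (by ring)
  refine ⟨U₁ * T₁, mul_mem (mem_gamma0_iff.mpr (by simp [U₁]))
    (mem_gamma0_iff.mpr (by simp [T₁])), ?_⟩
  rw [mul_assoc]
  refine ⟨mem_gamma0_iff.mpr ?_, ?_⟩
  · obtain ⟨d, hd⟩ : (q : ℤ) ∣ (u : ℤ) * j * matSL (T₁ * e) 0 0 + c := by
      rw [← ZMod.intCast_zmod_eq_zero_iff_dvd]
      push_cast
      rw [hj]
      field_simp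
      ring
    refine ⟨d, ?_⟩
    rw [matSL_mul, Matrix.mul_apply, Fin.sum_univ_two]
    simp only [U₁, matSL_slMk, Matrix.of_apply, Matrix.cons_val', Matrix.cons_val_zero,
      Matrix.cons_val_one, Matrix.cons_val_fin_one]
    rw [hc]
    push_cast
    linear_combination (L : ℤ) * hd
  · rw [← ZMod.intCast_zmod_eq_zero_iff_dvd, intCast_mul_apply, hT.2]
    simp [U₁]

variable {A : Type*} [AddCommGroup A]

/-- A class killed by weights with zero sums over the cosets is balanced. -/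
theorem isBalancedPow_of_cosets (hqL : q ∣ L) (hu : ¬ q ∣ u)
    (φ : Coh (L * q * q) trivChar A) {Q : ℕ} (hQ0 : Q ≠ 0) (hQ : Gamma Q ≤ upper0 (L * q) q)
    (H : ∀ (X : Type) [Fintype X] (k : SL(2, ℤ)) (hk : k ∈ Gamma Q) (h : X → SL(2, ℤ)),
      (∀ x, h x ∈ Gamma0 (L * u)) → ∀ c : X → ℤ,
        (∀ (Z : Type) [DecidableEq Z] (g : X → Z),
          (∀ x x', h x * (h x')⁻¹ ∈ Gamma0 (L * u * q) → g x = g x') →
            ∀ z, ∑ x ∈ Finset.univ.filter (fun x => g x = z), c x = 0) →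
        (∀ (Z : Type) [DecidableEq Z] (g : X → Z),
          (∀ x x', h x * (h x')⁻¹ ∈ upper0 (L * u) q → g x = g x') →
            ∀ z, ∑ x ∈ Finset.univ.filter (fun x => g x = z), c x = 0) →
        ∑ x, c x • upVer (L * q) q φ
          (Additive.ofMul ⟨h x * k * (h x)⁻¹, hQ ((Gamma_normal Q).conj_mem _ hk _)⟩) = 0) :
    IsBalancedPow φ := by
  classical
  letI := Fintype.ofFinite (Cos (upper0 (L * q) q))
  refine ⟨Q, hQ0, hQ, fun k hk c hc₁ hc₂ => ?_⟩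
  have hle : upper0 (L * q) q ≤ Gamma0 L := fun γ hγ => gamma0_le (dvd_mul_right L q) hγ.1
  set π := cosMap hle
  letI := Fintype.ofFinite (Cos (Gamma0 L))
  rw [← Finset.sum_fiberwise_of_maps_to (g := π) (t := Finset.univ) fun x _ => Finset.mem_univ _]
  refine Finset.sum_eq_zero fun y _ => ?_
  have he : ∀ x : {x : Cos (upper0 (L * q) q) // π x = y}, y.out⁻¹ * x.1.out ∈ Gamma0 L := fun x => by
    refine QuotientGroup.eq.mp ?_
    rw [QuotientGroup.out_eq']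
    conv_lhs => rw [← x.2]
    show π x.1 = π (x.1.out : Cos (upper0 (L * q) q))
    rw [QuotientGroup.out_eq']
  choose h hh hd using fun x : {x : Cos (upper0 (L * q) q) // π x = y} =>
    exists_gamma0_mul_mem hqL hu (he x)
  have hk' : y.out⁻¹ * k * y.out ∈ Gamma Q := by
    simpa using (Gamma_normal Q).conj_mem _ hk y.out⁻¹
  have hrel : ∀ x x', x.1.out⁻¹ * x'.1.out =
      (h x * (y.out⁻¹ * x.1.out))⁻¹ * (h x * (h x')⁻¹) * (h x' * (y.out⁻¹ * x'.1.out)) := fun x x' => by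
    group
  have hfib : ∀ {Γ₁ Γ₁' : Subgroup SL(2, ℤ)} (hle₁ : upper0 (L * q) q ≤ Γ₁) (_ : Γ₁ ≤ Gamma0 L),
      (∀ w ∈ Gamma0 (L * u), w ∈ Γ₁ → w ∈ Γ₁') →
      (∀ z, ∑ x ∈ Finset.univ.filter (fun x => cosMap hle₁ x = z), c x = 0) →
      ∀ (Z : Type) [DecidableEq Z] (g : {x : Cos (upper0 (L * q) q) // π x = y} → Z),
        (∀ x x', h x * (h x')⁻¹ ∈ Γ₁' → g x = g x') →
        ∀ z, ∑ x ∈ Finset.univ.filter (fun x => g x = z), c x.1 = 0 := by
    intro Γ₁ Γ₁' hle₁ hle₁' hΓ hc Z _ g hg z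
    set P : Cos (upper0 (L * q) q) → Prop := fun x => ∃ hx : π x = y, g ⟨x, hx⟩ = z
    have hzero : ∑ x ∈ Finset.univ.filter P, c x = 0 := by
      refine sum_filter_eq_zero _ c hc P fun x x' e hP => ?_
      obtain ⟨hx, hl⟩ := hP
      have hδ : x.out⁻¹ * x'.out ∈ Γ₁ := by
        rw [← QuotientGroup.out_eq' x, ← QuotientGroup.out_eq' x'] at e
        exact QuotientGroup.eq.mp (show ((x.out : SL(2, ℤ)) : Cos Γ₁) = (x'.out : SL(2, ℤ)) from e)
      have hy : π x' = y := by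
        rw [← hx, ← QuotientGroup.out_eq' x, ← QuotientGroup.out_eq' x']
        exact (QuotientGroup.eq.mpr (hle₁' hδ)).symm
      refine ⟨hy, ?_⟩
      rw [← hl]
      refine (hg ⟨x, hx⟩ ⟨x', hy⟩ (hΓ _ (mul_mem (hh _) (inv_mem (hh _))) ?_)).symm
      rw [hrel ⟨x, hx⟩ ⟨x', hy⟩] at hδ
      have := mul_mem (mul_mem (hle₁ (hd ⟨x, hx⟩)) hδ) (inv_mem (hle₁ (hd ⟨x', hy⟩)))
      simpa [mul_assoc] using this
    rw [← hzero]
    refine Finset.sum_bij (fun x _ => x.1) (fun x hx => ?_) (fun a _ b _ e => Subtype.ext e)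
      (fun x hx => ?_) fun _ _ => rfl
    · simp only [Finset.mem_filter, Finset.mem_univ, true_and, P] at hx ⊢
      exact ⟨x.2, hx⟩
    · simp only [Finset.mem_filter, Finset.mem_univ, true_and, P] at hx
      exact ⟨⟨x, hx.1⟩, by simpa using hx.2, rfl⟩
  have hcop : IsCoprime (u : ℤ) (q : ℤ) :=
    (Nat.isCoprime_iff_coprime).mpr (((Fact.out : q.Prime).coprime_iff_not_dvd).mpr hu).symm
  have hsum := H {x : Cos (upper0 (L * q) q) // π x = y} (y.out⁻¹ * k * y.out) hk' h hh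
    (fun x => c x.1)
    (hfib (upper0_le (L * q) q) (gamma0_mul_le L q) (fun w hw hw' => by
      rw [mem_gamma0_iff] at hw hw' ⊢
      push_cast at hw hw' ⊢
      obtain ⟨a, ha⟩ := hw
      rw [ha] at hw' ⊢
      refine mul_dvd_mul_left _ (hcop.symm.dvd_of_dvd_mul_left ?_)
      rw [mul_assoc] at hw'
      exact (mul_dvd_mul_iff_left (Int.natCast_ne_zero.2 (NeZero.ne L))).mp hw') hc₁)
    (hfib (upper0_mul_le (L := L)) (upper0_le L q) (fun w hw hw' => ⟨hw, hw'.2⟩) hc₂)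
  rw [← hsum, Finset.sum_subtype (p := fun x => π x = y) _ (by simp)]
  refine Finset.sum_congr rfl fun x _ => congrArg (c x.1 • ·) ?_
  set v : upper0 (L * q) q := (⟨_, hd x⟩ : upper0 (L * q) q)⁻¹
  have hcell : cellG k x.1 =
      v * ⟨_, hQ ((Gamma_normal Q).conj_mem _ hk' (h x))⟩ * v⁻¹ := by
    refine Subtype.ext ?_
    rw [cellG_of_fixed (smul_eq_of_mem_gamma hQ hk x.1)]
    simp only [v, Subgroup.coe_mul, Subgroup.coe_inv]
    group
  rw [homCocycle, hcell, ofMul_mul, ofMul_mul, ofMul_inv, map_add, map_add, map_neg]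
  simp only [v, ofMul_inv, map_neg]
  abel

end FLTAgent.RT.Carayol
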