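import Fermat.Agent.RT.Carayol.Pow.Lines
import Fermat.Agent.RT.Carayol.Geom.Balanced
import Fermat.Agent.Hecke.DegMaps

/-!
# Roots in the field of conjugates give balanced classes at levels divisible by `q³`

`etaExp h` sends a function of level `n q²` to the expansion of `f (h σ / q)`.  For `h, h' ∈ Γ₀(n)`
two of them agree on the two images of level `n q` according to the coset of `h' h⁻¹`, and on the
image of level `n` always.
-/

set_option autoImplicit false
set_option linter.style.haveILetI false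
set_option linter.unusedSectionVars false
set_option synthInstance.maxHeartbeats 100000

noncomputable section

open ModularCurve AlgebraicCurve UpperHalfPlane CongruenceSubgroup Filter Topology
open scoped MatrixGroups Manifold

namespace FLTAgent.RT.Carayol

open LevelRaise ModPoly Periods JTors LevelSq Hecke

local notation "Qbar" => AlgebraicClosure ℚ

variable {q : ℕ} [hq : Fact q.Prime]

local instance : NeZero q := ⟨hq.out.ne_zero⟩

/-- Products of conjugates with exponents balanced for the two maps from level `n q` are powers. -/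
def PowGeometryAt (q : ℕ) [NeZero q] (A : ValuationSubring Qbar) (n m : ℕ) : Prop :=
  ∀ (L : Type) [Field L] [Algebra (urField A) L] (X : Type) [Fintype X]
    (ι : X → (MF (urField A) (n * q * q) →ₐ[urField A] L)),
    (∀ x x' z, ι x (degMap (urField A) q (dvd_mul_right (n * q) q) z) =
      ι x' (degMap (urField A) q (dvd_mul_right (n * q) q) z)) →
    IntermediateField.adjoin (urField A) (⋃ x, Set.range (ι x)) = ⊤ →
    ∀ f : MF (urField A) (n * q * q), f ≠ 0 →
    (∀ V : ValuationSubring (MF (urField A) (n * q * q)),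
      (∀ c : urField A, algebraMap (urField A) _ c ∈ V) →
      ∃ y u : MF (urField A) (n * q * q), f = u * y ^ m ∧ u ∈ V ∧ u⁻¹ ∈ V) →
    ∀ c : X → ℤ,
    (∀ (Z : Type) [DecidableEq Z] (g : X → Z), (∀ x x', (ι x).comp
        (degMap (urField A) 1 (show n * q * 1 ∣ n * q * q by rw [mul_one]; exact dvd_mul_right _ q)) =
      (ι x').comp
        (degMap (urField A) 1 (show n * q * 1 ∣ n * q * q by rw [mul_one]; exact dvd_mul_right _ q)) →
        g x = g x') → ∀ z, ∑ x ∈ Finset.univ.filter (fun x => g x = z), c x = 0) →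
    (∀ (Z : Type) [DecidableEq Z] (g : X → Z),
      (∀ x x', (ι x).comp (degMap (urField A) q (dvd_refl (n * q * q))) =
        (ι x').comp (degMap (urField A) q (dvd_refl (n * q * q))) → g x = g x') →
        ∀ z, ∑ x ∈ Finset.univ.filter (fun x => g x = z), c x = 0) →
    ∃ h : L, h ^ m = ∏ x, (ι x f) ^ c x

variable {A : ValuationSubring Qbar} {K₀ : ℕ} [NeZero K₀]

theorem comp_down_mem_expRing' {g : ℍ → ℂ} (hg : g ∈ modFunRing K₀) (h : SL(2, ℤ)) :
    (fun σ => g (downPt q (h • σ))) ∈ expRing (q * K₀) := by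
  rw [mul_comm q]
  exact comp_tRep_mem_expRing hg (some 0) h

/-- The expansion of `g (h σ / q)`, any level. -/
def downExpL (h : SL(2, ℤ)) : modFunRing K₀ →ₐ[ℂ] LaurentSeries ℂ where
  toFun g := qLaurentHom (q * K₀) ⟨_, comp_down_mem_expRing' g.2 h⟩
  map_one' := map_one (qLaurentHom (q * K₀))
  map_mul' a b := map_mul (qLaurentHom (q * K₀)) ⟨_, comp_down_mem_expRing' a.2 h⟩
    ⟨_, comp_down_mem_expRing' b.2 h⟩
  map_zero' := map_zero (qLaurentHom (q * K₀))
  map_add' a b := map_add (qLaurentHom (q * K₀)) ⟨_, comp_down_mem_expRing' a.2 h⟩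
    ⟨_, comp_down_mem_expRing' b.2 h⟩
  commutes' c := AlgHom.commutes (qLaurentHom (q * K₀)) c

theorem expands_downExpL (h : SL(2, ℤ)) (g : modFunRing K₀) :
    Expands (q * K₀) (fun σ => (g : ℍ → ℂ) (downPt q (h • σ))) (downExpL (q := q) h g) :=
  expands_expSeries (⟨_, comp_down_mem_expRing' g.2 h⟩ : expRing (q * K₀))

theorem downExpL_injective (h : SL(2, ℤ)) :
    Function.Injective (downExpL (q := q) (K₀ := K₀) h) := fun f g e =>
  Subtype.ext (comp_down_injective h (eq_of_expands (mdifferentiable_comp_down f.2.1 h)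
    (mdifferentiable_comp_down g.2.1 h) (expands_downExpL h f) (e ▸ expands_downExpL h g)))

/-- The expansion of `f (h σ / q)`. -/
def etaExp (h : SL(2, ℤ)) : MF (urField A) K₀ →+* LaurentSeries ℂ :=
  (expEmb K₀ (downExpL (q := q) h) (downExpL_injective h)).comp (baseEmb A K₀)

theorem etaExp_mul {h : SL(2, ℤ)} {z : MF (urField A) K₀} {a b : modFunRing K₀}
    (e : toC K₀ (baseEmb A K₀ z) * qL K₀ b = qL K₀ a) :
    etaExp (q := q) h z * downExpL (q := q) h b = downExpL (q := q) h a :=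
  expEmb_mul K₀ _ (downExpL_injective h) e

theorem etaExp_algebraMap (h : SL(2, ℤ)) (c : urField A) :
    etaExp (q := q) h (algebraMap (urField A) (MF (urField A) K₀) c) =
      algebraMap ℂ (LaurentSeries ℂ) (embC (c : Qbar)) := by
  rw [etaExp, RingHom.comp_apply, baseEmb_algebraMap,
    over_expEmb K₀ (downExpL (q := q) h) (downExpL_injective h) (c : Qbar),
    algebraMap_laurentSeries_eq_single]

theorem etaExp_jd {e : ℕ} [NeZero e] (he : e ∣ K₀) (h : SL(2, ℤ)) :
    etaExp (q := q) (A := A) h ⟨jd (urField A) e, jd_mem _ he⟩ =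
      downExpL (q := q) h ⟨jMul e, jMul_mem he⟩ := by
  have h1 := etaExp_mul (q := q) (h := h) (z := (⟨jd (urField A) e, jd_mem _ he⟩ : MF (urField A) K₀))
    (a := ⟨jMul e, jMul_mem he⟩) (b := 1) (by
      rw [map_one, mul_one, toC_apply, coe_baseEmb, toSeriesQbar_jd A _ _ he, qL_jMul he,
        coeffMap_qExpand, coeffMap_jqModC])
  rwa [map_one, mul_one] at h1

theorem etaExp_jd_congr {e : ℕ} [NeZero e] (he : e ∣ K₀) {h h' : SL(2, ℤ)}
    (H : ∀ σ, jMul e (downPt q (h • σ)) = jMul e (downPt q (h' • σ))) :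
    etaExp (q := q) (A := A) h ⟨jd (urField A) e, jd_mem _ he⟩ =
      etaExp (q := q) h' ⟨jd (urField A) e, jd_mem _ he⟩ := by
  rw [etaExp_jd he, etaExp_jd he]
  exact congrArg (qLaurentHom (q * K₀)) (Subtype.ext (funext H))

theorem jMul_down (e : ℕ) (x : ℍ) : jMul (q * e) (downPt q x) = jMul e x := by
  simp only [jMul, coe_downPt]
  congr 2
  have hq0 : (q : ℂ) ≠ 0 := Nat.cast_ne_zero.2 hq.out.ne_zero
  push_cast
  field_simp

theorem jMul_down_one (x : ℍ) : jMul q (downPt q x) = jFun x := by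
  have := jMul_down (q := q) 1 x
  rwa [mul_one, jMul_one_eq] at this

/-- Two expansions agree on the image of a level if they do on its two generators. -/
theorem etaExp_degMap_congr {M d : ℕ} [NeZero M] [NeZero d] (hMd : M * d ∣ K₀) {h h' : SL(2, ℤ)}
    (h1 : ∀ σ, jMul d (downPt q (h • σ)) = jMul d (downPt q (h' • σ)))
    (h2 : ∀ σ, jMul (d * M) (downPt q (h • σ)) = jMul (d * M) (downPt q (h' • σ)))
    (z : MF (urField A) M) :
    etaExp (q := q) h (degMap (urField A) d hMd z) =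
      etaExp (q := q) h' (degMap (urField A) d hMd z) := by
  haveI : NeZero (d * M) := ⟨mul_ne_zero (NeZero.ne d) (NeZero.ne M)⟩
  refine RingHom.congr_fun (ringHom_MF_ext
    (f := (etaExp (q := q) h).comp (degMap (urField A) d hMd).toRingHom)
    (g := (etaExp (q := q) h').comp (degMap (urField A) d hMd).toRingHom) (fun c => ?_) ?_ ?_) z
  · simp only [RingHom.comp_apply, AlgHom.toRingHom_eq_coe, RingHom.coe_coe, AlgHom.commutes,
      etaExp_algebraMap]
  · have e : degMap (urField A) d hMd (jMF (urField A) M) =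
        ⟨jd (urField A) d, jd_mem _ ((dvd_mul_left d M).trans hMd)⟩ := Subtype.ext rfl
    simp only [RingHom.comp_apply, AlgHom.toRingHom_eq_coe, RingHom.coe_coe, e]
    exact etaExp_jd_congr ((dvd_mul_left d M).trans hMd) h1
  · have e : degMap (urField A) d hMd ⟨jd (urField A) M, jd_mem _ dvd_rfl⟩ =
        ⟨jd (urField A) (d * M), jd_mem _ (mul_comm M d ▸ hMd)⟩ := Subtype.ext (by
      show qExpand (urField A) d (qExpand (urField A) M (jqModC (urField A))) =
        qExpand (urField A) (d * M) (jqModC (urField A))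
      rw [qExpand_qExpand])
    simp only [RingHom.comp_apply, AlgHom.toRingHom_eq_coe, RingHom.coe_coe, e]
    exact etaExp_jd_congr (mul_comm M d ▸ hMd) h2

variable {n : ℕ} [NeZero n]

/-- The image of level `n q` by the first map only sees the cosets of `Γ₀(n) ∩ Γ⁰(q)`. -/
theorem etaExp_dA_congr {h h' : SL(2, ℤ)} (hw : h * h'⁻¹ ∈ upper0 n q) (hd : n * q * 1 ∣ n * q * q)
    (z : MF (urField A) (n * q)) :
    etaExp (q := q) h (degMap (urField A) 1 hd z) =
      etaExp (q := q) h' (degMap (urField A) 1 hd z) := by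
  have hσ : ∀ σ, downPt q (h • σ) =
      (((conjLE_gDown n q).hom ⟨_, hw⟩ : Gamma0 (n * q)) : SL(2, ℤ)) • downPt q (h' • σ) :=
    fun σ => by
      rw [← downPt_smul ((conjLE_gDown n q).spec ⟨_, hw⟩), ← mul_smul, inv_mul_cancel_right]
  refine etaExp_degMap_congr hd (fun σ => ?_) (fun σ => ?_) z
  · rw [hσ, jMul_one_eq, jFun_smul]
  · rw [hσ, one_mul]
    exact (jMul_mem (N := n * q) dvd_rfl).2.1 _ (SetLike.coe_mem _) _

/-- The image of level `n q` by the second map only sees the cosets of `Γ₀(n q)`. -/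
theorem etaExp_dB_congr {h h' : SL(2, ℤ)} (hw : h * h'⁻¹ ∈ Gamma0 (n * q))
    (hd : n * q * q ∣ n * q * q) (z : MF (urField A) (n * q)) :
    etaExp (q := q) h (degMap (urField A) q hd z) =
      etaExp (q := q) h' (degMap (urField A) q hd z) := by
  have hσ : ∀ σ : ℍ, h • σ = (h * h'⁻¹) • h' • σ := fun σ => by
    rw [← mul_smul, inv_mul_cancel_right]
  refine etaExp_degMap_congr hd (fun σ => ?_) (fun σ => ?_) z
  · rw [jMul_down_one, jMul_down_one, jFun_smul, jFun_smul]
  · rw [jMul_down, jMul_down, hσ]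
    exact (jMul_mem (N := n * q) dvd_rfl).2.1 _ hw _

/-- The image of level `n` is the same for all of `Γ₀(n)`. -/
theorem etaExp_mid_congr {h h' : SL(2, ℤ)} (hh : h ∈ Gamma0 n) (hh' : h' ∈ Gamma0 n)
    (hd : n * q ∣ n * q * q) (z : MF (urField A) n) :
    etaExp (q := q) h (degMap (urField A) q hd z) =
      etaExp (q := q) h' (degMap (urField A) q hd z) := by
  refine etaExp_degMap_congr hd (fun σ => ?_) (fun σ => ?_) z
  · rw [jMul_down_one, jMul_down_one, jFun_smul, jFun_smul]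
  · rw [jMul_down, jMul_down, (jMul_mem (N := n) dvd_rfl).2.1 _ hh,
      (jMul_mem (N := n) dvd_rfl).2.1 _ hh']

/-- The inclusion of the constants. -/
abbrev urC (A : ValuationSubring Qbar) : urField A →+* LaurentSeries ℂ :=
  (algebraMap ℂ (LaurentSeries ℂ)).comp (embC.comp (algebraMap (urField A) Qbar))

set_option maxHeartbeats 800000 in
/-- Roots of the balanced products make the characters multiply to `1`. -/
theorem prod_char_eq_one_pow {M₀ : ℕ} [NeZero M₀] (hM₀ : M₀ ∣ n * q * q) {m : ℕ} (hm : m ≠ 0)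
    (hgeo : PowGeometryAt q A n m) {f : modularFunctionFieldBar M₀} {χ : Gamma0 M₀ →* ℂˣ}
    (H : IsRootChar m f χ) {f' : MF (urField A) (n * q * q)} (hf' : f' ≠ 0)
    (heq : toSeriesQbar A (n * q * q) f' = (f : LaurentSeries Qbar))
    (hdivF : ∀ V : ValuationSubring (MF (urField A) (n * q * q)),
      (∀ c : urField A, algebraMap (urField A) _ c ∈ V) →
      ∃ y u : MF (urField A) (n * q * q), f' = u * y ^ m ∧ u ∈ V ∧ u⁻¹ ∈ V)
    {X : Type} [Fintype X] {k : SL(2, ℤ)} (hk : k ∈ Gamma (n * q * q)) (h : X → SL(2, ℤ))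
    (hh : ∀ x, h x ∈ Gamma0 n) (γ : X → Gamma0 M₀)
    (hγ : ∀ x σ, downPt q (h x • k • σ) = (γ x : SL(2, ℤ)) • downPt q (h x • σ))
    (c : X → ℤ)
    (hcA : ∀ (Z : Type) [DecidableEq Z] (g : X → Z),
      (∀ x x', h x * (h x')⁻¹ ∈ Gamma0 (n * q) → g x = g x') →
        ∀ z, ∑ x ∈ Finset.univ.filter (fun x => g x = z), c x = 0)
    (hcB : ∀ (Z : Type) [DecidableEq Z] (g : X → Z),
      (∀ x x', h x * (h x')⁻¹ ∈ upper0 n q → g x = g x') →
        ∀ z, ∑ x ∈ Finset.univ.filter (fun x => g x = z), c x = 0) :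
    ∏ x, χ (γ x) ^ c x = 1 := by
  classical
  haveI : NeZero (n * q * q) :=
    ⟨mul_ne_zero (mul_ne_zero (NeZero.ne n) (NeZero.ne q)) (NeZero.ne q)⟩
  letI : Algebra (urField A) (LaurentSeries ℂ) := (urC A).toAlgebra
  let η : X → (MF (urField A) (n * q * q) →ₐ[urField A] LaurentSeries ℂ) := fun x =>
    { etaExp (q := q) (h x) with commutes' := fun c => etaExp_algebraMap (h x) c }
  let L := IntermediateField.adjoin (urField A) (⋃ x, Set.range (η x))
  let ι : X → (MF (urField A) (n * q * q) →ₐ[urField A] L) := fun x =>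
    (η x).codRestrict L.toSubalgebra fun z =>
      IntermediateField.subset_adjoin _ _ (Set.mem_iUnion.2 ⟨x, z, rfl⟩)
  have hgen : IntermediateField.adjoin (urField A) (⋃ x, Set.range (ι x)) = ⊤ := by
    refine IntermediateField.map_injective L.val ?_
    rw [IntermediateField.adjoin_map, ← AlgHom.fieldRange_eq_map, IntermediateField.fieldRange_val,
      Set.image_iUnion]
    refine congrArg (IntermediateField.adjoin (urField A)) (Set.iUnion_congr fun x => ?_)
    rw [← Set.range_comp]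
    rfl
  obtain ⟨R, b, hd, hR⟩ := H
  obtain ⟨g, hg, hgR⟩ := hd.eq
  have hle := modFunRing_le_of_dvd (N := M₀) (M := n * q * q) hM₀
  let b' : modFunRing (n * q * q) := ⟨(b : ℍ → ℂ), hle b.2⟩
  let g' : modFunRing (n * q * q) := ⟨(g : ℍ → ℂ), hle g.2⟩
  have hser : toC (n * q * q) (baseEmb A (n * q * q) f') * qL _ (b' ^ m) = qL _ g' := by
    rw [map_pow, toC_apply, coe_baseEmb, heq, ← toC_apply,
      show qL (n * q * q) b' = qL M₀ b from qL_eq_of_expands (expands_qL b),
      show qL (n * q * q) g' = qL M₀ g from qL_eq_of_expands (expands_qL g), hg]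
  obtain ⟨hL, hhL⟩ := hgeo L X ι
    (fun x x' z => Subtype.ext (etaExp_mid_congr (hh x) (hh x') (dvd_mul_right (n * q) q) z)) hgen f' hf' hdivF c
    (fun Z _ g hg => hcB Z g fun x x' hw => hg x x' (AlgHom.ext fun z =>
      Subtype.ext (etaExp_dA_congr hw (show n * q * 1 ∣ n * q * q by rw [mul_one]; exact dvd_mul_right _ q) z)))
    (fun Z _ g hg => hcA Z g fun x x' hw => hg x x' (AlgHom.ext fun z =>
      Subtype.ext (etaExp_dB_congr hw (dvd_refl (n * q * q)) z)))
  set W := q * (n * q * q)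
  set E : X → LaurentSeries ℂ := fun x => etaExp (q := q) (h x) f' with hE
  have hprod : (hL : LaurentSeries ℂ) ^ m = ∏ x, E x ^ c x := by
    have h1 := congrArg L.val hhL
    simp only [map_pow, map_prod, map_zpow₀] at h1
    exact h1
  obtain ⟨F, G, α, β, hF, hG, hinv, hα, hβ, hβ0, heαβ⟩ : ∃ (F G : ℍ → ℂ) (α β : LaurentSeries ℂ),
      MDiff F ∧ MDiff G ∧
      (∀ k ∈ Gamma (n * q * q), ∀ σ, F (k • σ) = F σ ∧ G (k • σ) = G σ) ∧
      Expands W F α ∧ Expands W G β ∧ β ≠ 0 ∧ (hL : LaurentSeries ℂ) * β = α := by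
    refine IntermediateField.adjoin_induction (urField A)
      (p := fun y _ => ∃ (F G : ℍ → ℂ) (α β : LaurentSeries ℂ), MDiff F ∧ MDiff G ∧
        (∀ k ∈ Gamma (n * q * q), ∀ σ, F (k • σ) = F σ ∧ G (k • σ) = G σ) ∧
        Expands W F α ∧ Expands W G β ∧ β ≠ 0 ∧ y * β = α) ?_ ?_ ?_ ?_ ?_ hL.2
    · rintro _ hy
      obtain ⟨x, z, rfl⟩ := Set.mem_iUnion.1 hy
      obtain ⟨a, b, hb, hab⟩ := exists_frac (n * q * q) (baseEmb A (n * q * q) z)
      refine ⟨_, _, _, _, mdifferentiable_comp_down a.2.1 (h x), mdifferentiable_comp_down b.2.1 (h x),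
        fun k hk σ => ?_, expands_downExpL (h x) a, expands_downExpL (h x) b,
        (map_ne_zero_iff _ (downExpL_injective (h x))).2 hb, etaExp_mul hab⟩
      have hmem : h x * k * (h x)⁻¹ ∈ upper0 (n * q) q := by
        have h' := (Gamma_normal _).conj_mem _ hk (h x)
        rw [Gamma_mem] at h'
        exact ⟨mem_gamma0_iff.mpr ((Int.natCast_dvd_natCast.mpr (dvd_mul_right (n * q) q)).trans
          ((ZMod.intCast_zmod_eq_zero_iff_dvd _ _).mp h'.2.2.1)),
          (Int.natCast_dvd_natCast.mpr (dvd_mul_left q (n * q))).trans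
          ((ZMod.intCast_zmod_eq_zero_iff_dvd _ _).mp h'.2.1)⟩
      have e : downPt q (h x • k • σ) =
          (((conjLE_gDown (n * q) q).hom ⟨_, hmem⟩ : Gamma0 (n * q * q)) : SL(2, ℤ)) •
            downPt q (h x • σ) := by
        rw [← downPt_smul ((conjLE_gDown (n * q) q).spec ⟨_, hmem⟩), ← mul_smul, ← mul_smul,
          inv_mul_cancel_right]
      exact ⟨by simp only [e]; exact a.2.2.1 _ (SetLike.coe_mem _) _,
        by simp only [e]; exact b.2.2.1 _ (SetLike.coe_mem _) _⟩
    · intro c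
      refine ⟨fun _ => embC (c : Qbar), 1, _, 1, mdifferentiable_const, mdifferentiable_const,
        fun k _ σ => ⟨rfl, rfl⟩, Expands.const _ _, Expands.one _, one_ne_zero, ?_⟩
      rw [mul_one, RingHom.algebraMap_toAlgebra, RingHom.comp_apply,
        algebraMap_laurentSeries_eq_single]
      rfl
    · rintro a b _ _ ⟨F, G, α, β, hF, hG, hk, hα, hβ, hβ0, e⟩
        ⟨F', G', α', β', hF', hG', hk', hα', hβ', hβ0', e'⟩
      refine ⟨F * G' + F' * G, G * G', _, _, (hF.mul hG').add (hF'.mul hG), hG.mul hG',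
        fun k hkk σ => by
          simp only [Pi.add_apply, Pi.mul_apply, (hk k hkk σ).1, (hk k hkk σ).2, (hk' k hkk σ).1,
            (hk' k hkk σ).2, and_self],
        (hα.mul hβ').add (hα'.mul hβ), hβ.mul hβ', mul_ne_zero hβ0 hβ0', ?_⟩
      rw [← e, ← e']; ring
    · rintro a _ ⟨F, G, α, β, hF, hG, hk, hα, hβ, hβ0, e⟩
      by_cases h0 : a = 0
      · exact ⟨0, 1, 0, 1, mdifferentiable_const, mdifferentiable_const,
          fun k _ σ => ⟨rfl, rfl⟩, Expands.zero _, Expands.one _, one_ne_zero, by simp [h0]⟩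
      · refine ⟨G, F, β, α, hG, hF, fun k hkk σ => (hk k hkk σ).symm, hβ, hα, ?_, ?_⟩
        · rw [← e]; exact mul_ne_zero h0 hβ0
        · rw [← e, inv_mul_cancel_left₀ h0]
    · rintro a b _ _ ⟨F, G, α, β, hF, hG, hk, hα, hβ, hβ0, e⟩
        ⟨F', G', α', β', hF', hG', hk', hα', hβ', hβ0', e'⟩
      refine ⟨F * F', G * G', _, _, hF.mul hF', hG.mul hG',
        fun k hkk σ => by
          simp only [Pi.mul_apply, (hk k hkk σ).1, (hk k hkk σ).2, (hk' k hkk σ).1,
            (hk' k hkk σ).2, and_self],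
        hα.mul hα', hβ.mul hβ', mul_ne_zero hβ0 hβ0', ?_⟩
      rw [← e, ← e']; ring
  -- functions
  set B : X → ℍ → ℂ := fun x σ => (b : ℍ → ℂ) (downPt q (h x • σ))
  set Gx : X → ℍ → ℂ := fun x σ => (g : ℍ → ℂ) (downPt q (h x • σ))
  set Rx : X → ℍ → ℂ := fun x σ => R (downPt q (h x • σ))
  set cp : X → ℕ := fun x => (c x).toNat
  set cm : X → ℕ := fun x => (-c x).toNat
  have hEx : ∀ x, E x * downExpL (q := q) (h x) b' ^ m = downExpL (q := q) (h x) g' := fun x => by
    have := etaExp_mul (q := q) (h := h x) hser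
    rwa [map_pow] at this
  have hE0 : ∀ x, E x ≠ 0 := fun x => (map_ne_zero _).2 hf'
  have hEprod : (hL : LaurentSeries ℂ) ^ m * ∏ x, E x ^ cm x = ∏ x, E x ^ cp x := by
    rw [hprod, ← Finset.prod_mul_distrib]
    refine Finset.prod_congr rfl fun x _ => ?_
    rw [zpow_eq_div_toNat (hE0 x), div_mul_cancel₀ _ (pow_ne_zero _ (hE0 x))]
  have hexB : ∀ x, Expands W (B x) (downExpL (h x) b') := fun x => expands_downExpL (h x) b'
  have hexG : ∀ x, Expands W (Gx x) (downExpL (h x) g') := fun x => expands_downExpL (h x) g'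
  have hexprod : ∀ (U : X → ℍ → ℂ) (u : X → LaurentSeries ℂ), (∀ x, Expands W (U x) (u x)) →
      Expands W (∏ x, U x) (∏ x, u x) := fun U u hU => by
    induction (Finset.univ : Finset X) using Finset.induction_on with
    | empty => simpa using Expands.one W
    | insert a s ha ih => rw [Finset.prod_insert ha, Finset.prod_insert ha]; exact (hU a).mul ih
  have hB : ∀ x, MDiff (B x) := fun x => mdifferentiable_comp_down b.2.1 (h x)
  have hGx : ∀ x, MDiff (Gx x) := fun x => mdifferentiable_comp_down g.2.1 (h x)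
  have hRx : ∀ x, MDiff (Rx x) := fun x => mdifferentiable_comp_down hd.mdiff (h x)
  -- the identity between holomorphic functions
  have hid : F ^ m * ∏ x, Gx x ^ cm x * (B x ^ m) ^ cp x =
      G ^ m * ∏ x, Gx x ^ cp x * (B x ^ m) ^ cm x := by
    refine eq_of_expands (h := W) ?_ ?_ ((hα.pow m).mul (hexprod _ _ fun x =>
      ((hexG x).pow (cm x)).mul (((hexB x).pow m).pow (cp x)))) ?_
    · exact (hF.pow m).mul (mdifferentiable_finset_prod _ fun x =>
        ((hGx x).pow _).mul (((hB x).pow m).pow _))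
    · exact (hG.pow m).mul (mdifferentiable_finset_prod _ fun x =>
        ((hGx x).pow _).mul (((hB x).pow m).pow _))
    · refine cast (congrArg (Expands W _) ?_) ((hβ.pow m).mul (hexprod _ _ fun x =>
        ((hexG x).pow (cp x)).mul (((hexB x).pow m).pow (cm x))))
      simp only [← hEx, mul_pow, Finset.prod_mul_distrib]
      rw [← heαβ, mul_pow, ← hEprod]
      ring
  set P₁ : ℍ → ℂ := F * ∏ x, Rx x ^ cm x * B x ^ cp x
  set P₂ : ℍ → ℂ := G * ∏ x, Rx x ^ cp x * B x ^ cm x
  have hpow : ∀ σ, P₁ σ ^ m = P₂ σ ^ m := fun σ => by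
    have h1 := congrFun hid σ
    simp only [Pi.mul_apply, Pi.pow_apply, Finset.prod_apply] at h1
    simp only [P₁, P₂, Pi.mul_apply, Finset.prod_apply, Pi.pow_apply, mul_pow, ← Finset.prod_pow]
    convert h1 using 2 <;>
      exact Finset.prod_congr rfl fun x _ => by
        rw [pow_right_comm (Rx x σ), hgR, pow_right_comm (B x σ)]
  have hP₂ : P₂ ≠ 0 := by
    have hR0 : ∀ x, Rx x ≠ 0 := fun x h0 => hd.ne (comp_down_injective (h x) (g := 0) h0)
    have hB0 : ∀ x, B x ≠ 0 := fun x h0 =>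
      coe_ne_zero hd.b_ne (comp_down_injective (h x) (g := 0) h0)
    have hG0 : G ≠ 0 := fun h0 => hβ0 ((h0 ▸ hβ).unique (Expands.zero W))
    have hprod0 : ∀ s : Finset X, (∏ x ∈ s, Rx x ^ cp x * B x ^ cm x) ≠ 0 := fun s => by
      induction s using Finset.induction_on with
      | empty => simp
      | insert a s ha ih =>
        rw [Finset.prod_insert ha]
        refine mul_ne_zero_of_mdiff (((hRx a).pow _).mul ((hB a).pow _))
          (mdifferentiable_finset_prod _ fun x => ((hRx x).pow _).mul ((hB x).pow _))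
          (mul_ne_zero_of_mdiff ((hRx a).pow _) ((hB a).pow _) (fun h0 => hR0 a ?_)
            fun h0 => hB0 a ?_) ih <;>
        · funext σ; exact eq_zero_of_pow_eq_zero (congrFun h0 σ)
    exact mul_ne_zero_of_mdiff hG (mdifferentiable_finset_prod _ fun x =>
      ((hRx x).pow _).mul ((hB x).pow _)) hG0 (hprod0 _)
  obtain ⟨ξ, hξ, hξP⟩ := exists_const_mul_of_pow_eq
    (hF.mul (mdifferentiable_finset_prod _ fun x => ((hRx x).pow _).mul ((hB x).pow _)))
    (hG.mul (mdifferentiable_finset_prod _ fun x => ((hRx x).pow _).mul ((hB x).pow _)))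
    hm hP₂ hpow
  obtain ⟨σ, hσ⟩ := Function.ne_iff.1 hP₂
  have hξ0 : ξ ≠ 0 := fun h0 => by rw [h0, zero_pow hm] at hξ; exact zero_ne_one hξ
  have hact : ∀ e e' : X → ℕ, (∏ x, Rx x ^ e x * B x ^ e' x) (k • σ) =
      ((∏ x, χ (γ x) ^ e x : ℂˣ) : ℂ) * (∏ x, Rx x ^ e x * B x ^ e' x) σ := fun e e' => by
    rw [Finset.prod_apply, Finset.prod_apply, Units.coe_prod, ← Finset.prod_mul_distrib]
    refine Finset.prod_congr rfl fun x _ => ?_
    simp only [Pi.mul_apply, Pi.pow_apply, Rx, B, hγ, hR, smul_eq_coe, mul_pow,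
      Units.val_pow_eq_pow_val]
    ring
  have hval := hξP (k • σ)
  simp only [Pi.mul_apply, hact, (hinv k hk σ).1, (hinv k hk σ).2] at hval
  have hσ1 := hξP σ
  simp only [Pi.mul_apply] at hσ1
  have key : ((∏ x, χ (γ x) ^ cm x : ℂˣ) : ℂ) = ((∏ x, χ (γ x) ^ cp x : ℂˣ) : ℂ) := by
    refine mul_right_cancel₀ (mul_ne_zero hξ0 hσ) ?_
    simp only [P₂, Pi.mul_apply] at hσ ⊢
    linear_combination hval - ((∏ x, χ (γ x) ^ cm x : ℂˣ) : ℂ) * hσ1
  rw [Finset.prod_congr rfl (g := fun x => χ (γ x) ^ cp x / χ (γ x) ^ cm x)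
    fun x _ => units_zpow_eq_div_toNat _ _, Finset.prod_div_distrib, Units.ext key, div_self']

/-- The class of the character of the roots is balanced. -/
theorem isBalancedPow_of_roots {L u : ℕ} [NeZero L] [NeZero u] (hqL : q ∣ L) (hu : ¬ q ∣ u)
    {m : ℕ} (hm : m ≠ 0) (hgeo : PowGeometryAt q A (L * u) m)
    {f : modularFunctionFieldBar (L * q * q)} {χ : Gamma0 (L * q * q) →* ℂˣ}
    (H : IsRootChar m f χ) {f' : MF (urField A) (L * u * q * q)} (hf' : f' ≠ 0)
    (heq : toSeriesQbar A (L * u * q * q) f' = (f : LaurentSeries Qbar))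
    (hdivF : ∀ V : ValuationSubring (MF (urField A) (L * u * q * q)),
      (∀ c : urField A, algebraMap (urField A) _ c ∈ V) →
      ∃ y w : MF (urField A) (L * u * q * q), f' = w * y ^ m ∧ w ∈ V ∧ w⁻¹ ∈ V)
    {C : Type*} [AddCommGroup C] (φ : Coh (L * q * q) trivChar C)
    (e : Additive ℂˣ → C) (he : ∀ (X : Type) [Fintype X] (u : X → ℂˣ) (c : X → ℤ),
      (∀ x, u x ^ m = 1) → ∏ x, u x ^ c x = 1 → ∑ x, c x • e (Additive.ofMul (u x)) = 0)
    (hφ : ∀ γ : Gamma0 (L * q * q),
      toG0 (L * q * q) φ (Additive.ofMul γ) = e (Additive.ofMul (χ γ))) :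
    IsBalancedPow φ := by
  haveI : NeZero (L * q * q) :=
    ⟨mul_ne_zero (mul_ne_zero (NeZero.ne L) (NeZero.ne q)) (NeZero.ne q)⟩
  haveI : NeZero (L * u) := ⟨mul_ne_zero (NeZero.ne L) (NeZero.ne u)⟩
  have hM₀ : L * q * q ∣ L * u * q * q :=
    mul_dvd_mul_right (mul_dvd_mul_right (dvd_mul_right L u) q) q
  have hQ : Gamma (L * u * q * q) ≤ upper0 (L * q) q := fun γ hγ => by
    have h := Gamma_le_of_dvd hM₀ hγ
    rw [Gamma_mem] at h
    refine ⟨mem_gamma0_iff.mpr ?_, ?_⟩
    · exact (Int.natCast_dvd_natCast.mpr (dvd_mul_right (L * q) q)).trans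
        ((ZMod.intCast_zmod_eq_zero_iff_dvd _ _).mp h.2.2.1)
    · exact (Int.natCast_dvd_natCast.mpr (dvd_mul_left q (L * q))).trans
        ((ZMod.intCast_zmod_eq_zero_iff_dvd _ _).mp h.2.1)
  refine isBalancedPow_of_cosets hqL hu φ
    (mul_ne_zero (mul_ne_zero (NeZero.ne (L * u)) (NeZero.ne q)) (NeZero.ne q)) hQ
    fun X _ k hk h hh c hcA hcB => ?_
  set γ : X → Gamma0 (L * q * q) := fun x => (conjLE_gDown (L * q) q).hom
    ⟨h x * k * (h x)⁻¹, hQ ((Gamma_normal _).conj_mem _ hk _)⟩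
  have hone := prod_char_eq_one_pow hM₀ hm hgeo H hf' heq hdivF hk h hh γ (fun x σ => by
    rw [← downPt_smul ((conjLE_gDown (L * q) q).spec
      ⟨h x * k * (h x)⁻¹, hQ ((Gamma_normal _).conj_mem _ hk _)⟩), ← mul_smul, ← mul_smul]
    simp [mul_assoc]) c hcA hcB
  have hz := he X (fun x => χ (γ x)) c (fun x => H.pow_eq_one (γ x)) hone
  rw [← hz]
  exact Finset.sum_congr rfl fun x _ => congrArg (c x • ·) (hφ (γ x))

end FLTAgent.RT.Carayol
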